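/-
PROJECT R (row 37 by S43), gate G / LG1 assembly on `F_H` (helper4): **THE `H`-INVARIANT GATE, the
two literals.**

IG v2 (helper17 #6315) proves the gate on the fixed field `F_H` of a subgroup `H` of the `q`-part
diamonds, never on `ℚ̄(X₁(N q))` itself; this gives the cubic on the `H`-invariant points of
`J₁(N q)` only.  Every consumer (L0-L2) works on the `e_H`-part, so this is what is needed.

* `IsInvAt N q H y` : `⟨d'⟩_* y = y` for every `d' ∈ H`;
* `LG1HypAtH N q p H inv` : the consumer literal (chief's vocabulary `S43/Seam`);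
* `GateH N q p H` : the producer literal (vocabulary of `LG1/Instance`);
* `lg1HypAtH_of_lg1HypAt`, `gateH_of_lg1Hyp`, `lg1HypAtH_mono`, `gateH_mono` ;
* `lg1HypAtH_false : GateH N q p H → LG1HypAtH N q p H false` ;
* `lg1HypAtEven_of_lg1HypAtH` : for `H ≤ {d' | d' ≡ 1 mod N, d'² = 1}` the `H`-gate gives
  `Even.LG1HypAtEven`.
-/
import Fermat.Agent.S43.LG1.Even

set_option autoImplicit false
set_option linter.unusedSectionVars false

noncomputable section

namespace Fermat.Agent.S43.LG1.H.Lit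

open AlgebraicCurve AlgebraicCurve.SemilinearAut ModularCurve
open Fermat.Agent.S48.B.Defs.Model
open Fermat.Agent.S43.LG1.Instance Fermat.Agent.S43.LG1.ToSeam Fermat.Agent.S43.LG1.Even
open Fermat.Agent.S43.Seam

local notation "Kb" => AlgebraicClosure ℚ

/-- `y` is fixed by the diamonds of `H` -/
def IsInvAt (N q : ℕ) [NeZero (N * q)] (H : Subgroup (ZMod (N * q))ˣ) (y : J1 (N * q)) : Prop :=
  ∀ d' ∈ H, diamond1Bar (N * q) d' y = y

/-- **THE `H`-GATE, consumer literal.** -/
def LG1HypAtH (N q p : ℕ) [NeZero (N * q)] (H : Subgroup (ZMod (N * q))ˣ) (inv : Bool) : Prop :=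
  ∀ A : ValuationSubring Kb, A.LiesOverPrime q →
    ∀ s ∈ A.inertiaSubgroupIn ℚ, ∀ d : (ZMod (N * q))ˣ,
      IsOneModLeft N q d → ActsOnMuAs N q s d →
      ∀ y : J1 (N * q), (∃ n : ℕ, p ^ n • y = 0) → IsInvAt N q H y →
        CubicAt s (diamond1Bar (N * q) (if inv then d⁻¹ else d)) y

/-- **THE `H`-GATE, producer literal** (vocabulary of `LG1/Instance`). -/
def GateH (N q p : ℕ) [NeZero (N * q)] (H : Subgroup (ZMod (N * q))ˣ) : Prop :=
  ∀ A : ValuationSubring Kb, A.LiesOverPrime q → ∀ s ∈ A.inertiaSubgroupIn ℚ,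
    ∀ d : (ZMod (N * q))ˣ, IsInertiaDiamond N q s d →
      ∀ y : J1 (N * q), (∃ k : ℕ, p ^ k • y = 0) →
        (∀ d' ∈ H, dInv (N * q) d' • y = y) →
        s • (s • (s • y - dInv (N * q) d • y)) + (s • y - dInv (N * q) d • y)
          = 2 • (s • (s • y - dInv (N * q) d • y))

variable {N q p : ℕ} [NeZero (N * q)]

theorem lg1HypAtH_of_lg1HypAt {H : Subgroup (ZMod (N * q))ˣ} {inv : Bool}
    (h : LG1HypAt N q p inv) : LG1HypAtH N q p H inv :=
  fun A hA s hs d hd1 hμ y hy _ => h A hA s hs d hd1 hμ y hy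

theorem gateH_of_lg1Hyp {H : Subgroup (ZMod (N * q))ˣ}
    (h : Fermat.Agent.S43.LG1.Instance.LG1Hyp N q p) : GateH N q p H :=
  fun A hA s hs d hd y hy _ => h A hA s hs d hd y hy

/-- a gate for `H` is a gate for every bigger group -/
theorem lg1HypAtH_mono {H H' : Subgroup (ZMod (N * q))ˣ} (hHH' : H ≤ H') {inv : Bool}
    (h : LG1HypAtH N q p H inv) : LG1HypAtH N q p H' inv :=
  fun A hA s hs d hd1 hμ y hy hinv =>
    h A hA s hs d hd1 hμ y hy fun d' hd' => hinv d' (hHH' hd')

theorem gateH_mono {H H' : Subgroup (ZMod (N * q))ˣ} (hHH' : H ≤ H')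
    (h : GateH N q p H) : GateH N q p H' :=
  fun A hA s hs d hd y hy hinv => h A hA s hs d hd y hy fun d' hd' => hinv d' (hHH' hd')

/-- **The `H`-gate in the chief's literal, with the sign `inv = false`.** -/
theorem lg1HypAtH_false {H : Subgroup (ZMod (N * q))ˣ} (h : GateH N q p H) :
    LG1HypAtH N q p H false := by
  intro A hA s hs d hd1 hμ y hy hev
  have hd : IsInertiaDiamond N q s d := ⟨hμ, (isOneModLeft_iff N q d).mp hd1⟩
  have hev' : ∀ d' ∈ H, dInv (N * q) d' • y = y := by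
    intro d' h1
    rw [← diamond1Bar_eq_dInv]
    exact hev d' h1
  have h1 := h A hA s hs d hd y hy hev'
  unfold CubicAt
  simp only [Bool.false_eq_true, if_false]
  rw [diamond1Bar_eq_dInv]
  generalize s • y - dInv (N * q) d • y = z at h1 ⊢
  rw [two_smul] at h1
  have h2 : s • s • z = s • z + s • z - z := by rw [← h1]; abel
  rw [smul_sub, h2]
  abel

/-- the `H`-gate for a group of diamonds of order at most two of the `q`-part gives the even gate -/
theorem lg1HypAtEven_of_lg1HypAtH {H : Subgroup (ZMod (N * q))ˣ} {inv : Bool}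
    (hH : ∀ d' ∈ H, IsOneModLeft N q d' ∧ d' * d' = 1) (h : LG1HypAtH N q p H inv) :
    LG1HypAtEven N q p inv :=
  fun A hA s hs d hd1 hμ y hy hev =>
    h A hA s hs d hd1 hμ y hy fun d' hd' => hev d' (hH d' hd').1 (hH d' hd').2

end Fermat.Agent.S43.LG1.H.Lit
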