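/-
PROJECT R (row 37 by S43), gate G / LG1 assembly on `F_H` (helper4): **RESTRICTION OF AUTOMORPHISMS
ALONG AN EMBEDDING** `φ : F →ₐ[K] E` of fields.

* `restrictRing φ r h` : a ring automorphism `r` of `E` with `x ∈ φ(F) ↔ r x ∈ φ(F)` restricts to
  `F`; `apply_restrictRing : φ (restrictRing φ r h x) = r (φ x)`;
* `restrictAlg φ σ h : F ≃ₐ[K] F`, `restrictSemi φ g h : SemilinearAut K F` (same base
  automorphism), with `intertwines_restrictSemi`, `intertwines_restrictAlg`,
  `intertwines_restrictAlg_symm`;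
* `stable_of_normalizes` : an automorphism normalising a group `G` with fixed field `φ(F)`
  preserves `φ(F)`.
-/
import Mathlib
import Fermat.Prelude.Def_AlgebraicCurve_Correspondence

set_option autoImplicit false
set_option linter.unusedSectionVars false

noncomputable section

namespace Fermat.Agent.S43.LG1.H.Restrict

open AlgebraicCurve AlgebraicCurve.SemilinearAut

variable {K F E : Type*} [Field K] [Field F] [Field E] [Algebra K F] [Algebra K E]
variable (φ : F →ₐ[K] E)

theorem injective_hom : Function.Injective φ := (φ : F →+* E).injective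

/-- the preimage of an element of the range -/
def pre (y : E) (hy : y ∈ φ.range) : F := Classical.choose hy

@[simp]
theorem apply_pre (y : E) (hy : y ∈ φ.range) : φ (pre φ y hy) = y := Classical.choose_spec hy

theorem symm_stable {r : E ≃+* E} (h : ∀ x : E, x ∈ φ.range ↔ r x ∈ φ.range) (x : E) :
    x ∈ φ.range ↔ r.symm x ∈ φ.range := by
  rw [h (r.symm x), RingEquiv.apply_symm_apply]

/-- **restriction of a ring automorphism of `E` preserving `φ(F)`** -/
def restrictRing (r : E ≃+* E) (h : ∀ x : E, x ∈ φ.range ↔ r x ∈ φ.range) : F ≃+* F where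
  toFun x := pre φ (r (φ x)) ((h _).mp ⟨x, rfl⟩)
  invFun x := pre φ (r.symm (φ x)) ((symm_stable φ h _).mp ⟨x, rfl⟩)
  left_inv x := by
    apply injective_hom φ
    rw [apply_pre, apply_pre, RingEquiv.symm_apply_apply]
  right_inv x := by
    apply injective_hom φ
    rw [apply_pre, apply_pre, RingEquiv.apply_symm_apply]
  map_mul' x y := by
    apply injective_hom φ
    rw [apply_pre]
    simp only [map_mul, apply_pre]
  map_add' x y := by
    apply injective_hom φ
    rw [apply_pre]
    simp only [map_add, apply_pre]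

@[simp]
theorem apply_restrictRing (r : E ≃+* E) (h : ∀ x : E, x ∈ φ.range ↔ r x ∈ φ.range) (x : F) :
    φ (restrictRing φ r h x) = r (φ x) := apply_pre φ _ _

@[simp]
theorem apply_restrictRing_symm (r : E ≃+* E) (h : ∀ x : E, x ∈ φ.range ↔ r x ∈ φ.range)
    (x : F) : φ ((restrictRing φ r h).symm x) = r.symm (φ x) := apply_pre φ _ _

/-- **restriction of a `K`-automorphism** -/
def restrictAlg (σ : E ≃ₐ[K] E) (h : ∀ x : E, x ∈ φ.range ↔ σ x ∈ φ.range) : F ≃ₐ[K] F :=
  AlgEquiv.ofRingEquiv (f := restrictRing φ (σ : E ≃+* E) h) (fun a => by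
    apply injective_hom φ
    rw [apply_restrictRing, AlgHom.commutes]
    exact σ.commutes a)

@[simp]
theorem apply_restrictAlg (σ : E ≃ₐ[K] E) (h : ∀ x : E, x ∈ φ.range ↔ σ x ∈ φ.range) (x : F) :
    φ (restrictAlg φ σ h x) = σ (φ x) := apply_restrictRing φ _ h x

@[simp]
theorem apply_restrictAlg_symm (σ : E ≃ₐ[K] E) (h : ∀ x : E, x ∈ φ.range ↔ σ x ∈ φ.range)
    (x : F) : φ ((restrictAlg φ σ h).symm x) = σ.symm (φ x) := by
  apply σ.injective
  rw [← apply_restrictAlg φ σ h, AlgEquiv.apply_symm_apply, AlgEquiv.apply_symm_apply]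

/-- **restriction of a semilinear automorphism** (same base automorphism) -/
def restrictSemi (g : SemilinearAut K E) (h : ∀ x : E, x ∈ φ.range ↔ g • x ∈ φ.range) :
    SemilinearAut K F :=
  ⟨(restrictRing φ (toRingAut g) h, baseAut g), by
    rw [SemilinearAut.mem_iff]
    intro a
    apply injective_hom φ
    show φ (restrictRing φ (toRingAut g) h (algebraMap K F a)) = φ (algebraMap K F (baseAut g a))
    rw [apply_restrictRing, AlgHom.commutes, AlgHom.commutes]
    exact SemilinearAut.commutes g a⟩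

@[simp]
theorem baseAut_restrictSemi (g : SemilinearAut K E)
    (h : ∀ x : E, x ∈ φ.range ↔ g • x ∈ φ.range) : baseAut (restrictSemi φ g h) = baseAut g := rfl

@[simp]
theorem apply_restrictSemi (g : SemilinearAut K E)
    (h : ∀ x : E, x ∈ φ.range ↔ g • x ∈ φ.range) (x : F) :
    φ (restrictSemi φ g h • x) = g • φ x := apply_restrictRing φ _ h x

theorem intertwines_restrictSemi (g : SemilinearAut K E)
    (h : ∀ x : E, x ∈ φ.range ↔ g • x ∈ φ.range) :
    IntertwinesAlong (φ : F →+* E) (restrictSemi φ g h) g :=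
  fun x => (apply_restrictSemi φ g h x).symm

theorem intertwines_restrictAlg (σ : E ≃ₐ[K] E) (h : ∀ x : E, x ∈ φ.range ↔ σ x ∈ φ.range) :
    IntertwinesAlong (φ : F →+* E) (ofAlgAut (restrictAlg φ σ h)) (ofAlgAut σ) :=
  fun x => (apply_restrictAlg φ σ h x).symm

theorem intertwines_restrictAlg_symm (σ : E ≃ₐ[K] E)
    (h : ∀ x : E, x ∈ φ.range ↔ σ x ∈ φ.range) :
    IntertwinesAlong (φ : F →+* E) (ofAlgAut (restrictAlg φ σ h).symm) (ofAlgAut σ.symm) :=
  fun x => (apply_restrictAlg_symm φ σ h x).symm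

/-- an automorphism normalising a set `G` of automorphisms with fixed field `φ(F)` preserves
`φ(F)` -/
theorem stable_of_normalizes {G : Set (E ≃+* E)}
    (hfix : ∀ x : E, (∀ σ ∈ G, σ x = x) ↔ x ∈ φ.range) (r : E ≃+* E)
    (h1 : ∀ σ ∈ G, ∃ τ ∈ G, ∀ x, σ (r x) = r (τ x))
    (h2 : ∀ σ ∈ G, ∃ τ ∈ G, ∀ x, σ (r.symm x) = r.symm (τ x)) (x : E) :
    x ∈ φ.range ↔ r x ∈ φ.range := by
  constructor
  · intro hx
    rw [← hfix] at hx ⊢
    intro σ hσ
    obtain ⟨τ, hτ, e⟩ := h1 σ hσ
    rw [e, hx τ hτ]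
  · intro hx
    rw [← hfix] at hx ⊢
    intro σ hσ
    obtain ⟨τ, hτ, e⟩ := h2 σ hσ
    have := e (r x)
    rw [RingEquiv.symm_apply_apply] at this
    rw [this, hx τ hτ, RingEquiv.symm_apply_apply]

end Fermat.Agent.S43.LG1.H.Restrict
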