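/-
PROJECT R (row 37 by S43), gate G / LG1 assembly on `F_H` (helper4): **THE TRANSFER BRICK.**

`φ : F →ₐ[K] E` a finite homomorphism of function fields over an algebraically closed field of
characteristic zero, `G` a finite group of `K`-automorphisms of `E` whose fixed field is `φ(F)`.

* `isGalois_of_fixed` : (Artin, in the form used) a subgroup of `Gal(E/F)` with fixed field `F` is
  everything, and `E/F` is Galois;
* `norm_along_eq_prod` : `φ (N_{E/F} f) = ∏_{σ ∈ G} σ f`;
* `pullback_pushforward_of_torsion` : for a divisor `D` of `E` with `n D = div f`, `n ≠ 0`: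
  `φ^* φ_* D = ∑_{σ ∈ G} σ • D` (NO transitivity on the fibres is used: `n φ^* φ_* D =
  div (φ (N f)) = div (∏ σ f) = n ∑ σ • D`, and divisors are torsion free);
* `pullPic`, `pushPic` : `φ^*`, `φ_*` on `Pic⁰`; `pullPic_pushPic_of_torsion`;
* `exists_pullPic_eq_of_invariant` : for `gcd(|G|, n) = 1` every `G`-invariant `y ∈ Pic⁰(E)[n]` is
  `φ^* y₀`, `y₀ ∈ Pic⁰(F)[n]`;
* `pullPic_smul` : `φ^*` intertwines semilinear automorphisms intertwined by `φ`;
* `cubic_transfer` : the cubic identity of the gate on `Pic⁰(F)[n]` gives the same identity on the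
  `G`-invariant part of `Pic⁰(E)[n]`.
-/
import Mathlib
import Fermat.Agent.S30.Arith.CorrEquivariant
import Fermat.Agent.S37.Hecke.Inputs

set_option autoImplicit false
set_option linter.unusedSectionVars false
set_option linter.style.haveILetI false

noncomputable section

namespace Fermat.Agent.S43.LG1.H.Transfer

open AlgebraicCurve AlgebraicCurve.SemilinearAut
open Fermat.Agent.S30.Arith.CorrEquivariant

/-! ### Artin -/

section Artin

variable {F E : Type*} [Field F] [Field E] [Algebra F E] [FiniteDimensional F E]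

/-- a subgroup of `Gal(E/F)` whose fixed points all come from `F` is the whole group, and `E/F` is
Galois -/
theorem isGalois_of_fixed (S : Subgroup (E ≃ₐ[F] E))
    (h : ∀ x : E, (∀ σ ∈ S, σ x = x) → x ∈ (algebraMap F E).range) :
    IsGalois F E ∧ S = ⊤ := by
  have h1 : IntermediateField.fixedField S = ⊥ := by
    rw [eq_bot_iff]
    intro x hx
    rw [IntermediateField.mem_bot]
    exact h x (fun σ hσ => hx ⟨σ, hσ⟩)
  have h2 : IntermediateField.fixedField (⊤ : Subgroup (E ≃ₐ[F] E)) = ⊥ := by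
    rw [eq_bot_iff, ← h1]
    exact IntermediateField.fixedField_antitone le_top
  have hG : IsGalois F E := IsGalois.of_fixedField_eq_bot F E h2
  refine ⟨hG, ?_⟩
  have := IntermediateField.fixingSubgroup_fixedField S
  rw [h1, IntermediateField.fixingSubgroup_bot] at this
  exact this.symm

end Artin

/-! ### The norm along `φ` -/

section Norm

variable {K F E : Type*} [Field K] [Field F] [Field E] [Algebra K F] [Algebra K E]
variable (φ : F →ₐ[K] E) (G : Subgroup (E ≃ₐ[K] E))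

/-- an element of `G` as an automorphism of `E` over `F` (along `φ`) -/
def liftAut (hG : ∀ σ ∈ G, ∀ x : F, σ (φ x) = φ x) (σ : G) :
    letI := algebraAlong φ
    E ≃ₐ[F] E :=
  letI := algebraAlong φ
  AlgEquiv.ofRingEquiv (f := ((σ : E ≃ₐ[K] E) : E ≃+* E)) (fun x => hG σ σ.2 x)

theorem liftAut_apply (hG : ∀ σ ∈ G, ∀ x : F, σ (φ x) = φ x) (σ : G) (x : E) :
    liftAut φ G hG σ x = (σ : E ≃ₐ[K] E) x := rfl

/-- the lifts, as a group homomorphism -/
def liftHom (hG : ∀ σ ∈ G, ∀ x : F, σ (φ x) = φ x) :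
    letI := algebraAlong φ
    G →* (E ≃ₐ[F] E) :=
  letI := algebraAlong φ
  { toFun := liftAut φ G hG
    map_one' := by
      ext x
      rfl
    map_mul' := fun σ τ => by
      ext x
      rfl }

theorem liftHom_apply (hG : ∀ σ ∈ G, ∀ x : F, σ (φ x) = φ x) (σ : G) (x : E) :
    liftHom φ G hG σ x = (σ : E ≃ₐ[K] E) x := rfl

theorem liftHom_injective (hG : ∀ σ ∈ G, ∀ x : F, σ (φ x) = φ x) :
    Function.Injective (liftHom φ G hG) := by
  intro σ τ h
  apply Subtype.ext
  ext x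
  have := DFunLike.congr_fun h x
  exact this

variable {φ G}

/-- **Artin**: `E/F` is Galois and every `F`-automorphism of `E` is in `G`. -/
theorem isGalois_along (hfin : FiniteAlong K φ)
    (hfix : ∀ x : E, (∀ σ ∈ G, σ x = x) ↔ x ∈ φ.range) :
    letI := algebraAlong φ
    IsGalois F E ∧ Function.Surjective
      (liftHom φ G (fun σ hσ x => (hfix (φ x)).mpr ⟨x, rfl⟩ σ hσ)) := by
  letI := algebraAlong φ
  haveI : FiniteDimensional F E := hfin
  have hG : ∀ σ ∈ G, ∀ x : F, σ (φ x) = φ x := fun σ hσ x => (hfix (φ x)).mpr ⟨x, rfl⟩ σ hσ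
  obtain ⟨h1, h2⟩ := isGalois_of_fixed (F := F) (E := E) (liftHom φ G hG).range (by
    intro x hx
    obtain ⟨y, hy⟩ := (hfix x).mp (fun σ hσ => hx (liftHom φ G hG ⟨σ, hσ⟩) ⟨_, rfl⟩)
    exact ⟨y, hy⟩)
  refine ⟨h1, fun τ => ?_⟩
  have : τ ∈ (liftHom φ G hG).range := by rw [h2]; trivial
  exact this

/-- **`φ (N_{E/F} f) = ∏_{σ ∈ G} σ f`.** -/
theorem norm_along_eq_prod [Fintype G] (hfin : FiniteAlong K φ)
    (hfix : ∀ x : E, (∀ σ ∈ G, σ x = x) ↔ x ∈ φ.range) (f : E) :
    letI := algebraAlong φ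
    φ (Algebra.norm F f) = ∏ σ : G, (σ : E ≃ₐ[K] E) f := by
  letI := algebraAlong φ
  haveI : FiniteDimensional F E := hfin
  have hG : ∀ σ ∈ G, ∀ x : F, σ (φ x) = φ x := fun σ hσ x => (hfix (φ x)).mpr ⟨x, rfl⟩ σ hσ
  obtain ⟨h1, h2⟩ := isGalois_along hfin hfix
  haveI := h1
  have hbij : Function.Bijective (liftHom φ G hG) := ⟨liftHom_injective φ G hG, h2⟩
  have h3 := Algebra.norm_eq_prod_automorphisms F f
  have h4 : algebraMap F E (Algebra.norm F f) = φ (Algebra.norm F f) := rfl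
  rw [← h4, h3]
  symm
  exact Fintype.prod_bijective (liftHom φ G hG) hbij _ _ (fun σ => rfl)

end Norm

/-! ### Divisors -/

section Divisors

variable {K F E : Type*} [Field K] [Field F] [Field E] [Algebra K F] [Algebra K E]
variable [HasPrincipalDivisors K E]
variable {φ : F →ₐ[K] E} (hφ : φ.toRingHom.IsIntegral) {G : Subgroup (E ≃ₐ[K] E)} [Fintype G]

theorem ord_prod_ne {ι : Type*} (s : Finset ι) (w : Place K E) (f : ι → E)
    (hf : ∀ i ∈ s, f i ≠ 0) : w.ord (∏ i ∈ s, f i) = ∑ i ∈ s, w.ord (f i) := by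
  classical
  induction s using Finset.induction_on with
  | empty => simp
  | insert a s ha ih =>
    rw [Finset.prod_insert ha, Finset.sum_insert ha,
      Place.ord_mul w (hf a (Finset.mem_insert_self a s))
        (Finset.prod_ne_zero_iff.mpr fun i hi => hf i (Finset.mem_insert_of_mem hi)),
      ih fun i hi => hf i (Finset.mem_insert_of_mem hi)]

/-- **`φ^* φ_* D = ∑_{σ ∈ G} σ • D` for a divisor with `n D` principal.** -/
theorem pullback_pushforward_of_torsion (hfin : FiniteAlong K φ)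
    (hN : NormFormulaAlong K φ hfin)
    (hfix : ∀ x : E, (∀ σ ∈ G, σ x = x) ↔ x ∈ φ.range)
    {D : Divisor K E} {n : ℕ} (hn : n ≠ 0) {f : E} (hf : f ≠ 0)
    (hD : ∀ w : Place K E, (n • D) w = w.ord f) :
    Divisor.pullbackAlong φ hφ (Divisor.pushforwardAlong φ hφ D)
      = ∑ σ : G, ofAlgAut (σ : E ≃ₐ[K] E) • D := by
  have hnorm := norm_along_eq_prod hfin hfix f
  have key : n • Divisor.pullbackAlong φ hφ (Divisor.pushforwardAlong φ hφ D)
      = n • ∑ σ : G, ofAlgAut (σ : E ≃ₐ[K] E) • D := by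
    rw [← map_nsmul, ← map_nsmul]
    letI := algebraAlong φ
    haveI := isScalarTower_along φ
    haveI := isIntegral_along φ hφ
    haveI : Module.Finite F E := hfin
    have h1 : ∀ v : Place K F, Divisor.pushforwardAlong φ hφ (n • D) v
        = v.ord (Algebra.norm F f) := fun v => hN f hf (n • D) hD v
    ext w
    have h2 : Divisor.pullbackAlong φ hφ (Divisor.pushforwardAlong φ hφ (n • D)) w
        = w.ord (algebraMap F E (Algebra.norm F f)) :=
      Divisor.pullback_apply_eq_ord (F' := E) h1 w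
    rw [h2]
    have h3 : algebraMap F E (Algebra.norm F f) = φ (Algebra.norm F f) := rfl
    rw [h3, hnorm, ord_prod_ne _ w _ (fun σ _ => by simpa using hf), Finset.smul_sum,
      Finsupp.finsetSum_apply]
    refine Finset.sum_congr rfl fun σ _ => ?_
    rw [← smul_comm, divisor_smul_apply, hD]
    have h4 := ord_smul (ofAlgAut (σ : E ≃ₐ[K] E)) ((ofAlgAut (σ : E ≃ₐ[K] E))⁻¹ • w) f
    rw [smul_inv_smul, ofAlgAut_smul] at h4
    exact h4
  have hinj : Function.Injective (fun D : Divisor K E => n • D) := by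
    intro A B hAB
    ext w
    have := DFunLike.congr_fun hAB w
    simp only [Finsupp.smul_apply, nsmul_eq_mul] at this
    exact mul_left_cancel₀ (by exact_mod_cast hn) this
  exact hinj key

end Divisors

/-! ### `Pic⁰` -/

section Pic

variable {K F E : Type*} [Field K] [Field F] [Field E] [Algebra K F] [Algebra K E]
variable [HasPrincipalDivisors K E]
variable (φ : F →ₐ[K] E) (hφ : φ.toRingHom.IsIntegral)

/-- `φ^*` on degree-zero divisors -/
def pullDeg (hFI : FundamentalIdentityAlong K φ hφ) :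
    Divisor.degZero (K := K) (F := F) →+ Divisor.degZero (K := K) (F := E) :=
  ((Divisor.pullbackAlong φ hφ).domRestrict (Divisor.degZero (K := K) (F := F))).codRestrict _
    fun D => Divisor.pullbackAlong_mem_degZero φ hφ hFI D.2

@[simp]
theorem coe_pullDeg (hFI : FundamentalIdentityAlong K φ hφ)
    (D : Divisor.degZero (K := K) (F := F)) :
    (pullDeg φ hφ hFI D : Divisor K E) = Divisor.pullbackAlong φ hφ (D : Divisor K F) := rfl

/-- `φ^* : Pic⁰(F) → Pic⁰(E)` -/
def pullPic (hFI : FundamentalIdentityAlong K φ hφ) : Pic0 K F →+ Pic0 K E :=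
  QuotientAddGroup.map _ _ (pullDeg φ hφ hFI) (by
    rintro ⟨D, hD0⟩ hD
    simp only [AddSubgroup.mem_addSubgroupOf] at hD ⊢
    exact Divisor.isPrincipal_pullbackAlong φ hφ hD)

theorem pullPic_mk (hFI : FundamentalIdentityAlong K φ hφ)
    (D : Divisor.degZero (K := K) (F := F)) :
    pullPic φ hφ hFI (Pic0.mk D) = Pic0.mk (pullDeg φ hφ hFI D) := rfl

/-- `φ_*` on degree-zero divisors -/
def pushDeg : Divisor.degZero (K := K) (F := E) →+ Divisor.degZero (K := K) (F := F) :=
  ((Divisor.pushforwardAlong φ hφ).domRestrict (Divisor.degZero (K := K) (F := E))).codRestrict _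
    fun D => Divisor.pushforwardAlong_mem_degZero φ hφ D.2

@[simp]
theorem coe_pushDeg (D : Divisor.degZero (K := K) (F := E)) :
    (pushDeg φ hφ D : Divisor K F) = Divisor.pushforwardAlong φ hφ (D : Divisor K E) := rfl

/-- `φ_* : Pic⁰(E) → Pic⁰(F)` -/
def pushPic (hfin : FiniteAlong K φ) (hN : NormFormulaAlong K φ hfin) : Pic0 K E →+ Pic0 K F :=
  QuotientAddGroup.map _ _ (pushDeg φ hφ) (by
    rintro ⟨D, hD0⟩ hD
    simp only [AddSubgroup.mem_addSubgroupOf] at hD ⊢
    exact Divisor.isPrincipal_pushforwardAlong φ hφ hfin hN hD)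

theorem pushPic_mk (hfin : FiniteAlong K φ) (hN : NormFormulaAlong K φ hfin)
    (D : Divisor.degZero (K := K) (F := E)) :
    pushPic φ hφ hfin hN (Pic0.mk D) = Pic0.mk (pushDeg φ hφ D) := rfl

variable {φ}

/-- `φ^*` intertwines semilinear automorphisms intertwined by `φ` -/
theorem pullPic_smul (hFI : FundamentalIdentityAlong K φ hφ) {g : SemilinearAut K F}
    {g' : SemilinearAut K E} (h : IntertwinesAlong (φ : F →+* E) g g') (y : Pic0 K F) :
    pullPic φ hφ hFI (g • y) = g' • pullPic φ hφ hFI y := by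
  obtain ⟨D, rfl⟩ := Pic0.mk_surjective y
  rw [pic0_smul_mk, pullPic_mk, pullPic_mk, pic0_smul_mk]
  refine congrArg Pic0.mk (Subtype.ext ?_)
  rw [coe_pullDeg, coe_degZeroSMulHom, coe_degZeroSMulHom, coe_pullDeg,
    pullbackAlong_smul φ hφ h]

/-- `Pic0.mk` as a homomorphism -/
def mkHom : Divisor.degZero (K := K) (F := E) →+ Pic0 K E :=
  QuotientAddGroup.mk' _

variable {G : Subgroup (E ≃ₐ[K] E)} [Fintype G]

/-- **`φ^* φ_* y = ∑_{σ ∈ G} σ • y` on torsion classes.** -/
theorem pullPic_pushPic_of_torsion (hFI : FundamentalIdentityAlong K φ hφ)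
    (hfin : FiniteAlong K φ) (hN : NormFormulaAlong K φ hfin)
    (hfix : ∀ x : E, (∀ σ ∈ G, σ x = x) ↔ x ∈ φ.range)
    {n : ℕ} (hn : n ≠ 0) (y : Pic0 K E) (hy : n • y = 0) :
    pullPic φ hφ hFI (pushPic φ hφ hfin hN y) = ∑ σ : G, ofAlgAut (σ : E ≃ₐ[K] E) • y := by
  obtain ⟨D, rfl⟩ := Pic0.mk_surjective y
  have hmk : ∀ A : Divisor.degZero (K := K) (F := E), Pic0.mk A = mkHom (K := K) (E := E) A :=
    fun A => rfl
  have hp : (n • (D : Divisor K E)) ∈ Divisor.principal (K := K) (F := E) := by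
    have h1 : Pic0.mk (n • D) = 0 := by
      rw [← hy, hmk, hmk, map_nsmul]
    have h2 := (QuotientAddGroup.eq_zero_iff (n • D)).mp h1
    have h2' : ((n • D : Divisor.degZero (K := K) (F := E)) : Divisor K E)
        ∈ Divisor.principal (K := K) (F := E) := h2
    rwa [AddSubgroup.coe_nsmul] at h2'
  obtain ⟨f, hf, hDf⟩ := hp
  have key := pullback_pushforward_of_torsion hφ (G := G) hfin hN hfix hn hf hDf
  rw [pushPic_mk, pullPic_mk]
  have h3 : ∀ σ : G, ofAlgAut (σ : E ≃ₐ[K] E) • Pic0.mk D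
      = Pic0.mk (degZeroSMulHom (ofAlgAut (σ : E ≃ₐ[K] E)) D) := fun σ => pic0_smul_mk _ D
  simp only [h3]
  have h4 : ∑ σ : G, Pic0.mk (degZeroSMulHom (ofAlgAut (σ : E ≃ₐ[K] E)) D)
      = Pic0.mk (∑ σ : G, degZeroSMulHom (ofAlgAut (σ : E ≃ₐ[K] E)) D) := by
    simp only [hmk]
    exact (map_sum (mkHom (K := K) (E := E)) _ _).symm
  rw [h4]
  refine congrArg Pic0.mk (Subtype.ext ?_)
  rw [coe_pullDeg, coe_pushDeg, key, AddSubgroup.val_finsetSum]
  rfl

/-- **Descent of invariant torsion classes**: for `gcd(|G|, n) = 1`, every `G`-invariant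
`y ∈ Pic⁰(E)[n]` is `φ^* y₀` with `y₀ ∈ Pic⁰(F)[n]`. -/
theorem exists_pullPic_eq_of_invariant (hFI : FundamentalIdentityAlong K φ hφ)
    (hfin : FiniteAlong K φ) (hN : NormFormulaAlong K φ hfin)
    (hfix : ∀ x : E, (∀ σ ∈ G, σ x = x) ↔ x ∈ φ.range)
    {n : ℕ} (hn : n ≠ 0) (hcop : (Fintype.card G).Coprime n) (y : Pic0 K E) (hy : n • y = 0)
    (hinv : ∀ σ ∈ G, ofAlgAut σ • y = y) :
    ∃ y₀ : Pic0 K F, n • y₀ = 0 ∧ pullPic φ hφ hFI y₀ = y := by
  have h1 := pullPic_pushPic_of_torsion hφ (G := G) hFI hfin hN hfix hn y hy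
  have h2 : ∑ σ : G, ofAlgAut (σ : E ≃ₐ[K] E) • y = Fintype.card G • y := by
    rw [Finset.sum_congr rfl fun (σ : G) _ => hinv σ.1 σ.2, Finset.sum_const,
      Finset.card_univ]
  rw [h2] at h1
  -- Bezout
  have hb : (Fintype.card G : ℤ) * Int.gcdA (Fintype.card G) n
      + (n : ℤ) * Int.gcdB (Fintype.card G) n = 1 := by
    have := Int.gcd_eq_gcd_ab (Fintype.card G) n
    rw [Int.gcd_natCast_natCast, hcop] at this
    exact_mod_cast this.symm
  set c : ℤ := Int.gcdA (Fintype.card G) n with hc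
  set e : ℤ := Int.gcdB (Fintype.card G) n with he
  refine ⟨c • pushPic φ hφ hfin hN y, ?_, ?_⟩
  · rw [smul_comm, ← map_nsmul, hy, map_zero, smul_zero]
  · rw [map_zsmul, h1]
    have h3 : ((Fintype.card G : ℤ) * c + (n : ℤ) * e) • y = y := by rw [hb, one_smul]
    have h4 : ((n : ℤ) * e) • y = 0 := by
      rw [mul_zsmul', natCast_zsmul, hy, smul_zero]
    rw [add_zsmul, h4, add_zero, mul_zsmul', natCast_zsmul] at h3
    exact h3

/-- **The cubic identity of the gate passes from `Pic⁰(F)[n]` to the `G`-invariant part of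
`Pic⁰(E)[n]`.** -/
theorem cubic_transfer (hFI : FundamentalIdentityAlong K φ hφ)
    (hfin : FiniteAlong K φ) (hN : NormFormulaAlong K φ hfin)
    (hfix : ∀ x : E, (∀ σ ∈ G, σ x = x) ↔ x ∈ φ.range)
    {n : ℕ} (hn : n ≠ 0) (hcop : (Fintype.card G).Coprime n)
    {g δ : SemilinearAut K F} {g' δ' : SemilinearAut K E}
    (hg : IntertwinesAlong (φ : F →+* E) g g') (hδ : IntertwinesAlong (φ : F →+* E) δ δ')
    (hF : ∀ y₀ : Pic0 K F, n • y₀ = 0 →
      g • (g • (g • y₀ - δ • y₀)) + (g • y₀ - δ • y₀) = 2 • (g • (g • y₀ - δ • y₀)))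
    (y : Pic0 K E) (hy : n • y = 0) (hinv : ∀ σ ∈ G, ofAlgAut σ • y = y) :
    g' • (g' • (g' • y - δ' • y)) + (g' • y - δ' • y) = 2 • (g' • (g' • y - δ' • y)) := by
  obtain ⟨y₀, hy₀, rfl⟩ :=
    exists_pullPic_eq_of_invariant hφ (G := G) hFI hfin hN hfix hn hcop y hy hinv
  have h := congrArg (pullPic φ hφ hFI) (hF y₀ hy₀)
  simpa only [map_add, map_sub, map_nsmul, pullPic_smul hφ hFI hg, pullPic_smul hφ hFI hδ]
    using h

end Pic

/-! ### The four inputs from one generator -/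

section Inputs

open IntermediateField Fermat.Agent.S24.FF

universe u w

variable {K : Type w} {F E : Type u} [Field K] [Field F] [Field E] [Algebra K F] [Algebra K E]

/-- a subfield of a function field containing a generator is a function field -/
theorem isFF_of_map (φ : F →ₐ[K] E) {x : F} (h : IsFF K (φ x)) : IsFF K x := by
  refine ⟨fun hx => h.transcendental ((isAlgebraic_algHom_iff φ φ.injective).mpr hx), ?_⟩
  have hfin := h.finite
  have hmap : (K⟮x⟯).map φ = K⟮φ x⟯ := by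
    rw [IntermediateField.adjoin_map, Set.image_singleton]
  haveI : FiniteDimensional ↥((K⟮x⟯).map φ) E := by
    rw [hmap]
    exact hfin
  letI a1 : Algebra F E := φ.toRingHom.toAlgebra
  letI a2 : Algebra ↥K⟮x⟯ E := ((algebraMap F E).comp (algebraMap ↥K⟮x⟯ F)).toAlgebra
  haveI : IsScalarTower ↥K⟮x⟯ F E := IsScalarTower.of_algebraMap_eq fun _ => rfl
  haveI : Module.Finite ↥K⟮x⟯ E := by
    refine Module.Finite.of_equiv_equiv (A₁ := ↥((K⟮x⟯).map φ)) (B₁ := E)
      ((K⟮x⟯).equivMap φ).symm.toRingEquiv (RingEquiv.refl E) ?_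
    ext y
    obtain ⟨z, rfl⟩ := ((K⟮x⟯).equivMap φ).surjective y
    simp only [RingHom.coe_comp, RingHom.coe_coe, Function.comp_apply, AlgEquiv.coe_ringEquiv,
      AlgEquiv.symm_apply_apply, RingEquiv.coe_ringHom_refl, RingHom.id_apply]
    rfl
  exact FiniteDimensional.left ↥K⟮x⟯ F E

variable [IsAlgClosed K] [CharZero K] [HasPrincipalDivisors K E]

theorem isIntegral_of_map (φ : F →ₐ[K] E) {x : F} (h : IsFF K (φ x)) :
    φ.toRingHom.IsIntegral :=
  Fermat.Agent.S37.Hecke.Integral.isIntegral_of_isFF φ (isFF_of_map φ h).transcendental h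

theorem finiteAlong_of_map (φ : F →ₐ[K] E) {x : F} (h : IsFF K (φ x)) : FiniteAlong K φ :=
  Fermat.Agent.S37.Hecke.Integral.finiteAlong_of_isFF φ (isFF_of_map φ h).transcendental h

theorem fundamentalIdentity_of_map (φ : F →ₐ[K] E) {x : F} (h : IsFF K (φ x)) :
    FundamentalIdentityAlong K φ (isIntegral_of_map φ h) :=
  Fermat.Agent.S37.Hecke.Inputs.fundamentalIdentityAlong φ _ (finiteAlong_of_map φ h)
    (isFF_of_map φ h) h

theorem normFormula_of_map (φ : F →ₐ[K] E) {x : F} (h : IsFF K (φ x)) :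
    NormFormulaAlong K φ (finiteAlong_of_map φ h) :=
  Fermat.Agent.S37.Hecke.Inputs.normFormulaAlong φ _ (isFF_of_map φ h) h

/-- **`cubic_transfer` from one generator**: `φ : F →ₐ[K] E`, `x : F` with `φ x` a separating
variable of `E`, `G` a finite group of `K`-automorphisms of `E` with fixed field `φ(F)` and of order
prime to `n`. -/
theorem cubic_transfer_of_isFF {φ : F →ₐ[K] E} {x : F} (h : IsFF K (φ x))
    {G : Subgroup (E ≃ₐ[K] E)} [Fintype G]
    (hfix : ∀ x : E, (∀ σ ∈ G, σ x = x) ↔ x ∈ φ.range)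
    {n : ℕ} (hn : n ≠ 0) (hcop : (Fintype.card G).Coprime n)
    {g δ : SemilinearAut K F} {g' δ' : SemilinearAut K E}
    (hg : IntertwinesAlong (φ : F →+* E) g g') (hδ : IntertwinesAlong (φ : F →+* E) δ δ')
    (hF : ∀ y₀ : Pic0 K F, n • y₀ = 0 →
      g • (g • (g • y₀ - δ • y₀)) + (g • y₀ - δ • y₀) = 2 • (g • (g • y₀ - δ • y₀)))
    (y : Pic0 K E) (hy : n • y = 0) (hinv : ∀ σ ∈ G, ofAlgAut σ • y = y) :
    g' • (g' • (g' • y - δ' • y)) + (g' • y - δ' • y) = 2 • (g' • (g' • y - δ' • y)) :=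
  cubic_transfer (isIntegral_of_map φ h) (fundamentalIdentity_of_map φ h)
    (finiteAlong_of_map φ h) (normFormula_of_map φ h) hfix hn hcop hg hδ hF y hy hinv

end Inputs

end Fermat.Agent.S43.LG1.H.Transfer
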