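/-
PROJECT R (row 37 by S43), gate G / LG1 (helper4): **THE GATE ASSEMBLED ON THE FIXED FIELD `F_H`**
(IG v2, helper17 #6315: everything on `F_H`, never on `E' = ℚ̄(X₁(N q))`).

`M = N q`, `H ≤ (ℤ/M)ˣ` a subgroup of the `q`-part (`d ≡ 1 mod N`), of order prime to `p`.
THE PRESENTATION OF `F_H` IS ABSTRACT: a field `F` over `ℚ̄` with an embedding
`ι : F →ₐ[ℚ̄] E'` whose range is the set of `x` with `⟨d⟩ x = x` for all `d ∈ H`
(helper3's `Ig/TowerH.mem_FH_iff` with `ι` the inclusion of `↥(FH N q H)`).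

* `diaHom M`, `GH M H` : the diamonds as a group of automorphisms of `E'`;
* `stable_dia`, `stable_gal`, `stable_w` : the diamonds, the arithmetic Galois action and a Fricke
  automorphism preserve `ι(F)`; `δF`, `gF`, `wF` : their restrictions to `F`;
* `IsGaussBranchH ι A V`, `CoreZPairH ι p A V w` : THE TWO SEAMS ON `F` (presentation free: every
  clause is stated through `ι`, no restricted automorphism is mentioned);
* `cube_F` : `(g - 1)² (g - δ⁻¹) = 0` on `Pic⁰(F)[p^k]` (`OfFricke.cube_eq_zero_of_fricke` on `F`);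
* **`gateH_w`** : for ONE Fricke automorphism `w` of `E'`: `(∀ A ∣ q, ∃ V, IsGaussBranchH ι A V ∧
  CoreZPairH ι p A V (wF w)) → Lit.GateH N q p H` (through `Transfer.cubic_transfer_of_isFF`);
  `gateH` : the same from `HasFricke N q` and the seams for every `w`;
* `lg1HypAtH` : the consumer literal `Lit.LG1HypAtH N q p H false`.
-/
import Fermat.Agent.S43.LG1.H.Transfer
import Fermat.Agent.S43.LG1.H.Restrict
import Fermat.Agent.S43.LG1.H.Lit
import Fermat.Agent.S43.LG1.OfSeamsR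
import Fermat.Agent.S18.GaussFromHBar

set_option autoImplicit false
set_option linter.unusedSectionVars false
set_option linter.style.haveILetI false

noncomputable section

namespace Fermat.Agent.S43.LG1.H.Gate

open AlgebraicCurve AlgebraicCurve.SemilinearAut ModularCurve
open Fermat.Agent.S48.B.Defs.Model Fermat.Agent.S48.B.ES.DiamondUnique
open Fermat.Agent.S34.KummerZ Fermat.Agent.S34.Z1Abstract Fermat.Agent.S34.WeakApprox
open Fermat.Agent.S43.LG1.OfFricke Fermat.Agent.S43.LG1.Instance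
open Fermat.Agent.S43.LG1.Fricke.Seam Fermat.Agent.S43.LG1.OfSeams
open Fermat.Agent.S43.LG1.OfSeamsR
open Fermat.Agent.S43.LG1.H.Restrict Fermat.Agent.S43.LG1.H.Transfer
open Fermat.Agent.S43.LG1.H.Lit

local notation "Kb" => AlgebraicClosure ℚ

attribute [local instance] Fermat.Agent.S43.LG1.Fricke.Seam.instNeZeroMul

/-! ### The diamonds as a group of automorphisms -/

section Dia

variable (M : ℕ) [NeZero M]

/-- `d ↦ ⟨d⟩`, as a group homomorphism -/
def diaHom : (ZMod M)ˣ →* (F1Bar M ≃ₐ[Kb] F1Bar M) where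
  toFun d := diamondAut M Kb d
  map_one' := Fermat.Agent.S48.B.B1.DiamondUnique.diamondAut_one
    (Fermat.Agent.S48.B.B1.Main.wpForms M) (Fermat.Agent.S48.B.B1.Main.repLe M)
  map_mul' d d' := Fermat.Agent.S48.B.B1.DiamondUnique.diamondAut_mul
    (Fermat.Agent.S48.B.B1.Main.wpForms M) (Fermat.Agent.S48.B.B1.Main.repLe M) d d'

@[simp]
theorem diaHom_apply (d : (ZMod M)ˣ) : diaHom M d = diamondAut M Kb d := rfl

/-- the diamonds commute -/
theorem dia_comm (d d' : (ZMod M)ˣ) (x : F1Bar M) :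
    diamondAut M Kb d (diamondAut M Kb d' x) = diamondAut M Kb d' (diamondAut M Kb d x) := by
  have h1 : (diaHom M d * diaHom M d') x = (diaHom M d' * diaHom M d) x := by
    rw [← map_mul, ← map_mul, mul_comm]
  exact h1

theorem dia_symm_apply (d : (ZMod M)ˣ) (x : F1Bar M) :
    (diamondAut M Kb d).symm x = diamondAut M Kb d⁻¹ x := by
  rw [Fermat.Agent.S48.B.B1.DiamondUnique.diamondAut_inv
    (Fermat.Agent.S48.B.B1.Main.wpForms M) (Fermat.Agent.S48.B.B1.Main.repLe M) d]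

/-- the arithmetic Galois action commutes with the diamonds -/
theorem gal_dia (s : Kb ≃ₐ[ℚ] Kb) (d : (ZMod M)ˣ) (x : F1Bar M) :
    arithmeticGalois (F1 M) s • diamondAut M Kb d x
      = diamondAut M Kb d (arithmeticGalois (F1 M) s • x) := by
  have h1 := Fermat.Agent.S48.B.Red.Diamond1.arithmeticGalois_mul_ofAlgAut
    (Fermat.Agent.S48.B.B1.Main.diamondExists M) d s
  have h2 := congrArg (fun g : SemilinearAut Kb (F1Bar M) => g • x) h1
  simp only [mul_smul, ofAlgAut_smul] at h2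
  exact h2

/-- the group of diamonds of `H` -/
def GH (H : Subgroup (ZMod M)ˣ) : Subgroup (F1Bar M ≃ₐ[Kb] F1Bar M) := H.map (diaHom M)

theorem mem_GH {H : Subgroup (ZMod M)ˣ} {σ : F1Bar M ≃ₐ[Kb] F1Bar M} :
    σ ∈ GH M H ↔ ∃ d ∈ H, diamondAut M Kb d = σ := Subgroup.mem_map

end Dia

/-! ### The abstract presentation of `F_H` and the restricted automorphisms -/

section Pres

variable {N q : ℕ} [NeZero N] [NeZero q]
variable {H : Subgroup (ZMod (N * q))ˣ}
variable {F : Type} [Field F] [Algebra Kb F] (ι : F →ₐ[Kb] F1Bar (N * q))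
variable (hι : ∀ x : F1Bar (N * q), x ∈ ι.range ↔ ∀ d ∈ H, diamondAut (N * q) Kb d x = x)

include hι in
/-- the fixed field of `GH` is `ι(F)` -/
theorem hfix (x : F1Bar (N * q)) : (∀ σ ∈ GH (N * q) H, σ x = x) ↔ x ∈ ι.range := by
  rw [hι]
  constructor
  · intro h d hd
    exact h _ ((mem_GH (N * q)).mpr ⟨d, hd, rfl⟩)
  · intro h σ hσ
    obtain ⟨d, hd, rfl⟩ := (mem_GH (N * q)).mp hσ
    exact h d hd

include hι in
/-- every diamond preserves `ι(F)` -/
theorem stable_dia (d : (ZMod (N * q))ˣ) (x : F1Bar (N * q)) :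
    x ∈ ι.range ↔ diamondAut (N * q) Kb d x ∈ ι.range := by
  rw [hι, hι]
  constructor
  · intro h d' hd'
    rw [dia_comm, h d' hd']
  · intro h d' hd'
    have := h d' hd'
    rw [dia_comm] at this
    exact (diamondAut (N * q) Kb d).injective this

include hι in
/-- the arithmetic Galois action preserves `ι(F)` -/
theorem stable_gal (s : Kb ≃ₐ[ℚ] Kb) (x : F1Bar (N * q)) :
    x ∈ ι.range ↔ arithmeticGalois (F1 (N * q)) s • x ∈ ι.range := by
  rw [hι, hι]
  constructor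
  · intro h d' hd'
    rw [← gal_dia, h d' hd']
  · intro h d' hd'
    have := h d' hd'
    rw [← gal_dia] at this
    exact MulAction.injective _ this

include hι in
/-- a Fricke automorphism preserves `ι(F)` (it normalises the `q`-part) -/
theorem stable_w (hHq : ∀ d ∈ H, IsRPart N q d) {w : F1Bar (N * q) ≃ₐ[Kb] F1Bar (N * q)}
    (hw : IsFricke N q w) (x : F1Bar (N * q)) : x ∈ ι.range ↔ w x ∈ ι.range := by
  have hD : ∀ d, IsDiamondAut (N * q) Kb d (diamondAut (N * q) Kb d) := fun d =>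
    Fermat.Agent.S48.B.B1.Main.isDiamondAut_diamondAut (N * q) Kb d
  rw [hι, hι]
  constructor
  · intro h d' hd'
    -- `⟨d'⟩ (w x) = w (⟨d'⟩⁻¹ x)`
    have h1 := hw.2.1 d'⁻¹ _ (hD d'⁻¹) (hHq _ (H.inv_mem hd')) x
    rw [dia_symm_apply, inv_inv] at h1
    rw [← h1, h d'⁻¹ (H.inv_mem hd')]
  · intro h d' hd'
    have h1 := hw.2.1 d' _ (hD d') (hHq _ hd') x
    rw [dia_symm_apply, h d'⁻¹ (H.inv_mem hd')] at h1
    exact w.injective h1

/-- the diamond `⟨d⟩` on `F` -/
def δF (d : (ZMod (N * q))ˣ) : F ≃ₐ[Kb] F :=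
  restrictAlg ι (diamondAut (N * q) Kb d) (stable_dia ι hι d)

/-- the arithmetic Galois action on `F` -/
def gF (s : Kb ≃ₐ[ℚ] Kb) : SemilinearAut Kb F :=
  restrictSemi ι (arithmeticGalois (F1 (N * q)) s) (stable_gal ι hι s)

/-- a Fricke automorphism on `F` -/
def wF (hHq : ∀ d ∈ H, IsRPart N q d) (w : F1Bar (N * q) ≃ₐ[Kb] F1Bar (N * q))
    (hw : IsFricke N q w) : F ≃ₐ[Kb] F :=
  restrictAlg ι w (stable_w ι hι hHq hw)

@[simp]
theorem apply_δF (d : (ZMod (N * q))ˣ) (x : F) :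
    ι (δF ι hι d x) = diamondAut (N * q) Kb d (ι x) := apply_restrictAlg ι _ _ x

@[simp]
theorem apply_gF (s : Kb ≃ₐ[ℚ] Kb) (x : F) :
    ι (gF ι hι s • x) = arithmeticGalois (F1 (N * q)) s • ι x := apply_restrictSemi ι _ _ x

@[simp]
theorem apply_wF (hHq : ∀ d ∈ H, IsRPart N q d) (w : F1Bar (N * q) ≃ₐ[Kb] F1Bar (N * q))
    (hw : IsFricke N q w) (x : F) : ι (wF ι hι hHq w hw x) = w (ι x) :=
  apply_restrictAlg ι _ _ x

theorem baseAut_gF (s : Kb ≃ₐ[ℚ] Kb) :
    baseAut (gF ι hι s) = baseAut (arithmeticGalois (F1 (N * q)) s) := rfl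

/-! ### The two seams on `F` -/

/-- **seam (V) on `F_H`**: the Gauss branch `V` of `F` over `A`.  Clause 1: inertia acts trivially
on the residue field; clause 2 (= (I1), Igusa): the `q`-part diamonds preserve `V`; 3-5: archimedean,
proper, value group attained on constants; 6: `j(t^{N q}) ≡ j(t^N)^q`, `j(t^N) ≢ j(t^{N q})^q`. -/
def IsGaussBranchH (A : ValuationSubring Kb) (V : ValuationSubring F) : Prop :=
  (∀ s ∈ A.inertiaSubgroupIn ℚ, ∀ x ∈ V, ∀ y : F,
      ι y = arithmeticGalois (F1 (N * q)) s • ι x → y - x ∈ V.nonunits) ∧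
    (∀ d : (ZMod (N * q))ˣ, IsQPart N q d → ∀ x y : F,
      ι y = diamondAut (N * q) Kb d (ι x) → (y ∈ V ↔ x ∈ V)) ∧
    Arch V ∧ V ≠ ⊤ ∧
    (∀ f : F, f ≠ 0 → ∃ c : Kb, V.valuation f = V.valuation (algebraMap Kb F c)) ∧
    (∀ jb js : F, ι jb = jBig N q → ι js = jSmall N q →
      jb - js ^ q ∈ V.nonunits ∧ js - jb ^ q ∉ V.nonunits)

/-- **seam (C) on `F_H`**: Core-Z for the pair `(V, w⁻¹ V)`, for the inertia group of `A`
(`g` any semilinear automorphism of `F` inducing `s` on `ι(F)`). -/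
def CoreZPairH (p : ℕ) (A : ValuationSubring Kb) (V : ValuationSubring F) (w : F ≃ₐ[Kb] F) :
    Prop :=
  ∀ s ∈ A.inertiaSubgroupIn ℚ, ∀ g : SemilinearAut Kb F,
    (∀ x : F, ι (g • x) = arithmeticGalois (F1 (N * q)) s • ι x) →
    ∀ k : ℕ, ∀ u : F, Hn (K := Kb) (p ^ k) u → IsOneUnit V u → IsOneUnit (pull V w) u →
      ∃ (c : Kb) (h : F), c ≠ 0 ∧ h ≠ 0 ∧
        g • u = algebraMap Kb F c * h ^ (p ^ k) * u

/-! ### The gate on `Pic⁰(F)` -/

section Cube

variable (hHq : ∀ d ∈ H, IsRPart N q d)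

include hι in
theorem jBig_mem : jBig N q ∈ ι.range := by
  rw [hι]
  intro d _
  exact apply_jGen (Fermat.Agent.S48.B.B1.Main.isDiamondAut_diamondAut (N * q) Kb d) _ _

include hι in
theorem jSmall_mem : jSmall N q ∈ ι.range := by
  rw [hι]
  intro d _
  exact apply_jGen (Fermat.Agent.S48.B.B1.Main.isDiamondAut_diamondAut (N * q) Kb d) _ _

variable {ι hι}

/-- the two branches are distinct -/
theorem ne_pullH {A : ValuationSubring Kb} {V : ValuationSubring F}
    (hV : IsGaussBranchH ι A V) {w : F1Bar (N * q) ≃ₐ[Kb] F1Bar (N * q)}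
    (hw : IsFricke N q w) : V ≠ pull V (wF ι hι hHq w hw) := by
  intro h
  obtain ⟨-, -, -, -, -, h6⟩ := hV
  obtain ⟨jb, hjb⟩ := jBig_mem ι hι
  obtain ⟨js, hjs⟩ := jSmall_mem ι hι
  obtain ⟨h1, h2⟩ := h6 jb js hjb hjs
  obtain ⟨e1, e2⟩ := hw.1 (jBig N q) (jSmall N q) rfl rfl
  have e1' : wF ι hι hHq w hw jb = js := by
    apply injective_hom ι
    rw [apply_wF]
    exact (congrArg w hjb).trans (e1.trans hjs.symm)
  have e2' : wF ι hι hHq w hw js = jb := by
    apply injective_hom ι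
    rw [apply_wF]
    exact (congrArg w hjs).trans (e2.trans hjb.symm)
  apply h2
  have h3 : jb - js ^ q ∈ (pull V (wF ι hι hHq w hw)).nonunits := by rw [← h]; exact h1
  rw [mem_nonunits_pull, map_sub, map_pow, e1', e2'] at h3
  exact h3

/-- **`(g - 1)² (g - δ⁻¹) = 0` on `Pic⁰(F)[p^k]`**, `g` the restriction of the inertia element `s`,
`δ` the restriction of its diamond. -/
theorem cube_F {p : ℕ} (hp : p ≠ 0) {A : ValuationSubring Kb} {V : ValuationSubring F}
    (hV : IsGaussBranchH ι A V) {w : F1Bar (N * q) ≃ₐ[Kb] F1Bar (N * q)}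
    (hw : IsFricke N q w) (hC : CoreZPairH ι p A V (wF ι hι hHq w hw))
    {s : Kb ≃ₐ[ℚ] Kb} (hs : s ∈ A.inertiaSubgroupIn ℚ) {d : (ZMod (N * q))ˣ}
    (hd : IsInertiaDiamond N q s d) (k : ℕ) (y : Pic0 Kb F) (hy : p ^ k • y = 0) :
    gF ι hι s • (gF ι hι s • (gF ι hι s • y - ofAlgAut (δF ι hι d).symm • y))
        + (gF ι hι s • y - ofAlgAut (δF ι hι d).symm • y)
      = 2 • (gF ι hι s • (gF ι hι s • y - ofAlgAut (δF ι hι d).symm • y)) := by
  have hD : IsDiamondAut (N * q) Kb d (diamondAut (N * q) Kb d) :=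
    Fermat.Agent.S48.B.B1.Main.isDiamondAut_diamondAut (N * q) Kb d
  have hgw : ∀ x : F, gF ι hι s • wF ι hι hHq w hw x
      = wF ι hι hHq w hw (δF ι hι d (gF ι hι s • x)) := by
    intro x
    apply injective_hom ι
    rw [apply_gF, apply_wF, apply_wF, apply_δF, apply_gF]
    exact hw.2.2 s d _ hD hd.2 hd.1 (ι x)
  have hgδ : ∀ x : F, gF ι hι s • δF ι hι d x = δF ι hι d (gF ι hι s • x) := by
    intro x
    apply injective_hom ι
    rw [apply_gF, apply_δF, apply_δF, apply_gF]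
    exact gal_dia (N * q) s d (ι x)
  have hwδ : ∀ x : F, wF ι hι hHq w hw (δF ι hι d x)
      = (δF ι hι d).symm (wF ι hι hHq w hw x) := by
    intro x
    apply injective_hom ι
    rw [apply_wF, apply_δF]
    have h1 : ι ((δF ι hι d).symm (wF ι hι hHq w hw x))
        = (diamondAut (N * q) Kb d).symm (ι (wF ι hι hHq w hw x)) :=
      apply_restrictAlg_symm ι _ _ _
    rw [h1, apply_wF]
    exact hw.2.1 d _ hD hd.2 (ι x)
  have htriv : ∀ x ∈ V, gF ι hι s • x - x ∈ V.nonunits := fun x hx =>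
    hV.1 s hs x hx _ (apply_gF ι hι s x)
  have hδV : ∀ x : F, δF ι hι d x ∈ V ↔ x ∈ V := fun x =>
    hV.2.1 d hd.2 x _ (apply_δF ι hι d x)
  have hy' : ((p ^ k : ℕ) : ℤ) • y = 0 := by
    rw [natCast_zsmul]
    exact hy
  exact cube_eq_zero_of_fricke (gF ι hι s) (wF ι hι hHq w hw) (δF ι hι d) hgw hgδ hwδ
    htriv hδV (p ^ k) (pow_ne_zero k hp) hV.2.2.1 hV.2.2.2.1 (ne_pullH hHq hV hw) hV.2.2.2.2.1
    (fun c => IsAlgClosed.exists_pow_nat_eq c (Nat.pos_of_ne_zero (pow_ne_zero k hp)))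
    (fun u hu h1 h2 => hC s hs (gF ι hι s) (apply_gF ι hι s) k u hu h1 h2) y hy'

end Cube

/-! ### The gate on the `H`-invariant part of `J₁(N q)` -/

section GateH

variable (hHq : ∀ d ∈ H, IsRPart N q d) [Finite H]

include hι in
/-- `j ∈ ι(F)` -/
theorem jgen1_mem : Fermat.Agent.S48.B.B1.Seams.jgen1 (N * q) ∈ ι.range := by
  rw [hι]
  intro d _
  exact Fermat.Agent.S48.B.Red.Diamond1.diamondAut_jgen1
    (Fermat.Agent.S48.B.B1.Main.diamondExists (N * q)) d

instance finite_GH : Finite (GH (N * q) H) := by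
  unfold GH
  exact Finite.of_surjective (fun d : H => (⟨diaHom (N * q) d, Subgroup.mem_map_of_mem _ d.2⟩ :
    H.map (diaHom (N * q)))) (by
      rintro ⟨σ, hσ⟩
      obtain ⟨d, hd, rfl⟩ := Subgroup.mem_map.mp hσ
      exact ⟨⟨d, hd⟩, rfl⟩)

theorem card_GH_dvd : Nat.card (GH (N * q) H) ∣ Nat.card H := by
  unfold GH
  exact Subgroup.card_map_dvd H (diaHom (N * q))

variable {ι hι}

/-- **THE `H`-GATE for ONE GIVEN Fricke automorphism `w`** of `E'` and the two seams (V), (C) on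
`F` for the pair `(V, (wF w)⁻¹ V)`. -/
theorem gateH_w {p : ℕ} (hp : p ≠ 0) (hcop : (Nat.card H).Coprime p)
    (w : F1Bar (N * q) ≃ₐ[Kb] F1Bar (N * q)) (hw : IsFricke N q w)
    (hVC : ∀ A : ValuationSubring Kb, A.LiesOverPrime q →
      ∃ V : ValuationSubring F, IsGaussBranchH ι A V ∧ CoreZPairH ι p A V (wF ι hι hHq w hw)) :
    GateH N q p H := by
  classical
  intro A hA s hs d hd y hy hinv
  obtain ⟨V, hV, hC⟩ := hVC A hA
  obtain ⟨k, hk⟩ := hy
  obtain ⟨x, hx⟩ := jgen1_mem ι hι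
  have hFF : Fermat.Agent.S24.FF.IsFF Kb (ι x) := by
    have h0 : ι x = Fermat.Agent.S48.B.B1.Seams.jgen1 (N * q) := hx
    rw [h0]
    exact (Fermat.Agent.S48.B.B1.Main.deg1 (N * q)).1
  haveI : HasPrincipalDivisors Kb (F1Bar (N * q)) :=
    Fermat.Agent.S18.GaussFromHBar.hasPrincipalDivisors_of_isFF
      (Fermat.Agent.S48.B.B1.Main.deg1 (N * q)).1
  letI : Fintype (GH (N * q) H) := Fintype.ofFinite _
  have hcard : (Fintype.card (GH (N * q) H)).Coprime (p ^ k) := by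
    rw [← Nat.card_eq_fintype_card]
    exact Nat.Coprime.pow_right k (Nat.Coprime.coprime_dvd_left (card_GH_dvd) hcop)
  have hinv' : ∀ σ ∈ GH (N * q) H, ofAlgAut σ • y = y := by
    intro σ hσ
    obtain ⟨d', hd', rfl⟩ := (mem_GH (N * q)).mp hσ
    have h1 := hinv d'⁻¹ (H.inv_mem hd')
    unfold dInv at h1
    have h2 : (diamondAut (N * q) Kb d'⁻¹).symm = diamondAut (N * q) Kb d' := by
      rw [Fermat.Agent.S48.B.B1.DiamondUnique.diamondAut_inv
        (Fermat.Agent.S48.B.B1.Main.wpForms (N * q)) (Fermat.Agent.S48.B.B1.Main.repLe (N * q)) d',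
        AlgEquiv.symm_symm]
    rw [h2] at h1
    exact h1
  rw [galois_smul_pic0_def, galois_smul_pic0_def, galois_smul_pic0_def]
  exact cubic_transfer_of_isFF hFF (hfix ι hι) (pow_ne_zero k hp) hcard
    (intertwines_restrictSemi ι _ (stable_gal ι hι s))
    (intertwines_restrictAlg_symm ι _ (stable_dia ι hι d))
    (fun y₀ hy₀ => cube_F hHq hp hV hw hC hs hd k y₀ hy₀) y hk hinv'

/-- **THE `H`-GATE** from the seam (W) on `E'` and the two seams (V), (C) on `F`. -/
theorem gateH {p : ℕ} (hp : p ≠ 0) (hcop : (Nat.card H).Coprime p) (hW : HasFricke N q)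
    (hVC : ∀ A : ValuationSubring Kb, A.LiesOverPrime q →
      ∃ V : ValuationSubring F, IsGaussBranchH ι A V ∧
        ∀ (w : F1Bar (N * q) ≃ₐ[Kb] F1Bar (N * q)) (hw : IsFricke N q w),
          CoreZPairH ι p A V (wF ι hι hHq w hw)) :
    GateH N q p H := by
  obtain ⟨w, hw⟩ := hW
  exact gateH_w hHq hp hcop w hw fun A hA => by
    obtain ⟨V, hV, hC⟩ := hVC A hA
    exact ⟨V, hV, hC w hw⟩

/-- the `H`-gate in the chief's literal, for one given `w` -/
theorem lg1HypAtH_w {p : ℕ} (hp : p ≠ 0) (hcop : (Nat.card H).Coprime p)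
    (w : F1Bar (N * q) ≃ₐ[Kb] F1Bar (N * q)) (hw : IsFricke N q w)
    (hVC : ∀ A : ValuationSubring Kb, A.LiesOverPrime q →
      ∃ V : ValuationSubring F, IsGaussBranchH ι A V ∧ CoreZPairH ι p A V (wF ι hι hHq w hw)) :
    LG1HypAtH N q p H false :=
  lg1HypAtH_false (gateH_w hHq hp hcop w hw hVC)

/-- **THE `H`-GATE in the chief's literal.** -/
theorem lg1HypAtH {p : ℕ} (hp : p ≠ 0) (hcop : (Nat.card H).Coprime p) (hW : HasFricke N q)
    (hVC : ∀ A : ValuationSubring Kb, A.LiesOverPrime q →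
      ∃ V : ValuationSubring F, IsGaussBranchH ι A V ∧
        ∀ (w : F1Bar (N * q) ≃ₐ[Kb] F1Bar (N * q)) (hw : IsFricke N q w),
          CoreZPairH ι p A V (wF ι hι hHq w hw)) :
    LG1HypAtH N q p H false :=
  lg1HypAtH_false (gateH hHq hp hcop hW hVC)

end GateH

end Pres

end Fermat.Agent.S43.LG1.H.Gate
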