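/-
PROJECT R (row 37 by S43), gate G / LG1 (helper11): **THE `H`-GATE AT `q = 2`** (and more generally
at every prime `r ∤ N` for which `E' = ℚ̄(X₁(N r))` is not bigger than `E'' = ℚ̄(X₁(N; r))`, which
happens exactly for `r = 2`: `[E' : E''] = r - 1`).

Every IG / TowerH producer of the gate needs `2 < r`.  At `r = 2` nothing of IG is needed: the
tower `E' / E''` is trivial, so helper4's `H/Gate.lg1HypAtH_w` can be fed with
`F := E''`, `ι := TowerAlg.incl N r`, `H := ⊥`, the Gauss branch `V := Z1X1.V1X1` of C1 and the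
Fricke automorphism of helper7's `Ig/FrickeW1.exists_fricke_extends`; the seam (C) is literally
helper13's `C1/CoreZX1.coreZHyp1`.

* `incl_smul` : `incl` intertwines the two coefficientwise Galois actions;
* `mem_range_incl`, `hι_bot` : the presentation hypothesis of `H/Gate` for `H = ⊥`;
* `wF_eq_W1`, `pull_wF_eq` : the restricted Fricke automorphism is `W1`, so `w⁻¹ V₁ = V₂`;
* `coreZPairH_incl` : the seam (C) from `CoreZX1OfPrincipal.CoreZHyp1`;
* `coe_eq_jZ`, `jb_sub_mem_nonunits`, `js_sub_notMem_nonunits` : clause 6 of the seam (V) on `V₁`;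
* `isGaussBranchH_incl` : the seam (V);
* `lg1HypAtH_of_le` : the gate for `H = ⊥` from `F1Bar (N r) ≤ F1pBar N r`;
* **`lg1HypAtH_two`** : `LG1HypAtH N 2 p ⊥ false` for `5 ≤ N` odd, `p ≠ 2` prime;
  `lg1HypAtH_two'` : the same for any `H'`.
-/
import Mathlib
import Fermat.Agent.S43.LG1.H.Gate
import Fermat.Agent.S43.LG1.Ig.FrickeW1
import Fermat.Agent.S43.LG1.Ig.TestFrob
import Fermat.Agent.S43.LG1.C1.CoreZX1
import Fermat.Agent.S43.LG1.C1.GaussPairBridgeX1
import Fermat.Agent.S43.LG1.V.Branch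

set_option autoImplicit false
set_option linter.unusedSectionVars false
set_option linter.style.haveILetI false
set_option synthInstance.maxHeartbeats 400000

noncomputable section

namespace Fermat.Agent.S43.LG1.H.GateTwo

open HahnSeries ModularCurve AlgebraicCurve AlgebraicCurve.SemilinearAut IsLocalRing
open Fermat.Agent.S48.B.Defs.Model Fermat.Agent.S48.B.ES.DiamondUnique
open Fermat.Agent.S48.B.B1.Seams Fermat.Agent.S48.B.ES.DegreeBeta1
open Fermat.Agent.S34.KummerZ Fermat.Agent.S34.Z1Abstract Fermat.Agent.S34.WeakApprox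
open Fermat.Agent.S43.LG1.OfFricke Fermat.Agent.S43.LG1.Instance
open Fermat.Agent.S43.LG1.Fricke.Seam Fermat.Agent.S43.LG1.OfSeams
open Fermat.Agent.S43.LG1.OfSeamsR
open Fermat.Agent.S43.LG1.H.Restrict Fermat.Agent.S43.LG1.H.Gate Fermat.Agent.S43.LG1.H.Lit
open Fermat.Agent.S43.LG1.Ig.Tower Fermat.Agent.S43.LG1.Ig.TowerAlg
open Fermat.Agent.S43.LG1.C1.Seam Fermat.Agent.S43.LG1.C1.Z1X1
open Fermat.Agent.S43.LG1.C1.GaussPairX1 Fermat.Agent.S43.LG1.C1.GaussPairBridgeX1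
open Fermat.Agent.S43.LG1.V.Branch (jZ coeffMap_jZ qExpand_jqModC_pow)

local notation "Kb" => AlgebraicClosure ℚ

attribute [local instance] Fermat.Agent.S43.LG1.Fricke.Seam.instNeZeroMul
attribute [local instance] algShortcut1

variable {r : ℕ} [hrF : Fact r.Prime] {N : ℕ} [NeZero N] [NeZero r] [hc : Fact (r.Coprime N)]

/-! ### `incl` and the Galois actions -/

/-- `incl` intertwines the coefficientwise Galois actions of `E''` and `E'` -/
theorem incl_smul (s : Kb ≃ₐ[ℚ] Kb) (x : ↥(F1pBar N r)) :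
    incl N r (arithmeticGalois (F1p N r) s • x) =
      arithmeticGalois (F1 (N * r)) s • incl N r x := by
  apply Subtype.ext
  rw [coe_incl]
  exact (coe_arithmeticGalois_smul (F1p N r) s x).trans
    ((congrArg (coeffMap (s : Kb →+* Kb)) (coe_incl N r x).symm).trans
      (coe_arithmeticGalois_smul (F1 (N * r)) s (incl N r x)).symm)

/-- every element of `E'` comes from `E''` as soon as `E' ≤ E''` -/
theorem mem_range_incl (hle : F1Bar (N * r) ≤ F1pBar N r) (x : ↥(F1Bar (N * r))) :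
    x ∈ (incl N r).range :=
  ⟨⟨x, hle x.2⟩, Subtype.ext (coe_incl N r _)⟩

/-- the presentation hypothesis of `H/Gate` for `H = ⊥` -/
theorem hι_bot (hle : F1Bar (N * r) ≤ F1pBar N r) (x : ↥(F1Bar (N * r))) :
    x ∈ (incl N r).range ↔
      ∀ d ∈ (⊥ : Subgroup (ZMod (N * r))ˣ), diamondAut (N * r) Kb d x = x := by
  refine ⟨fun _ d hd => ?_, fun _ => mem_range_incl hle x⟩
  rw [Subgroup.mem_bot.mp hd, ← diaHom_apply, map_one]
  rfl

/-- the trivial group is in the `r`-part -/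
theorem hHq_bot : ∀ d ∈ (⊥ : Subgroup (ZMod (N * r))ˣ), IsRPart N r d := by
  intro d hd
  rw [Subgroup.mem_bot.mp hd]
  unfold IsRPart
  have hNr : 1 < N * r := by
    have h1 : 0 < N := Nat.pos_of_ne_zero (NeZero.ne N)
    have h2 : 2 ≤ r := hrF.out.two_le
    nlinarith
  haveI : Fact (1 < N * r) := ⟨hNr⟩
  rw [Units.val_one, ZMod.val_one, Nat.cast_one]

/-! ### the restricted Fricke automorphism is `W1` -/

section Fricke

variable (hr : r.Prime) (hrN : ¬ r ∣ N) (hle : F1Bar (N * r) ≤ F1pBar N r)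
variable {w : ↥(F1Bar (N * r)) ≃ₐ[Kb] ↥(F1Bar (N * r))} (hw : IsFricke N r w)
  (hwW : ∀ x : ↥(F1pBar N r), w (incl N r x) = incl N r (W1 N r hr hrN x))

include hwW in
/-- the restriction of `w` to `E''` is `W1` -/
theorem wF_eq_W1 (x : ↥(F1pBar N r)) :
    wF (incl N r) (hι_bot hle) hHq_bot w hw x = W1 N r hr hrN x := by
  apply injective_hom (incl N r)
  rw [apply_wF]
  exact hwW x

variable {A : ValuationSubring Kb} (hA : A.LiesOverPrime r)

include hwW in
/-- `w⁻¹ V₁ = V₂` -/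
theorem pull_wF_eq :
    pull (V1X1 hr hA hrN) (wF (incl N r) (hι_bot hle) hHq_bot w hw) = V2X1 hr hA hrN := by
  rw [V2X1_eq_comap]
  ext x
  rw [mem_pull, ValuationSubring.mem_comap, W1Hom_apply, wF_eq_W1 hr hrN hle hw hwW]

include hwW in
/-- **the seam (C) on `E''`** is helper13's `CoreZHyp1` -/
theorem coreZPairH_incl {p : ℕ}
    (hC : Fermat.Agent.S43.LG1.C1.CoreZX1OfPrincipal.CoreZHyp1 N r p) :
    CoreZPairH (incl N r) p A (V1X1 hr hA hrN)
      (wF (incl N r) (hι_bot hle) hHq_bot w hw) := by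
  intro s hs g hg k u hu h1 h2
  rw [pull_wF_eq hr hrN hle hw hwW hA] at h2
  obtain ⟨c, h, hc0, hh0, e⟩ := hC A hr hA hrN s hs k u hu h1 h2
  refine ⟨c, h, hc0, hh0, ?_⟩
  rw [← e]
  apply injective_hom (incl N r)
  rw [hg u, incl_smul]

end Fricke

/-! ### clause 6 of the seam (V) on `V₁` -/

section Six

variable (hr : r.Prime) (hrN : ¬ r ∣ N) {A : ValuationSubring Kb} (hA : A.LiesOverPrime r)

/-- the series `j(t^d)` over `ℚ̄` is `ℤ`-integral -/
theorem coeffEmb_jq_eq (A : ValuationSubring Kb) (d : ℕ) [NeZero d] :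
    coeffEmb Kb (qExpand ℚ d jq) =
      coeffMap A.subtype (coeffMap (Int.castRingHom ↥A) (jZ d)) := by
  rw [coeffMap_coeffMap,
    RingHom.ext_int (A.subtype.comp (Int.castRingHom ↥A)) (Int.castRingHom Kb), coeffMap_jZ,
    coeffEmb, Fermat.Agent.S28.PrimeCaseForm.coeffMap_qExpand, ← jqModC_rat, coeffMap_jqModC]

variable {jb js : ↥(F1pBar N r)} (hjb : incl N r jb = jBig N r) (hjs : incl N r js = jSmall N r)

include hjb in
theorem coe_jb (A : ValuationSubring Kb) : (jb : LaurentSeries Kb) =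
    coeffMap A.subtype (coeffMap (Int.castRingHom ↥A) (jZ (N * r))) := by
  rw [← coeffEmb_jq_eq, ← coe_incl N r jb, hjb]
  rfl

include hjs in
theorem coe_js (A : ValuationSubring Kb) : (js : LaurentSeries Kb) =
    coeffMap A.subtype (coeffMap (Int.castRingHom ↥A) (jZ N)) := by
  rw [← coeffEmb_jq_eq, ← coe_incl N r js, hjs]
  rfl

include hr hrN hjb hjs in
/-- `j(t^{N r}) ≡ j(t^N)^r` modulo the maximal ideal of `V₁` -/
theorem jb_sub_mem_nonunits : jb - js ^ r ∈ (V₁ N A hA).nonunits := by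
  haveI := Fermat.Agent.S18.ResidueBasics.charP_residueField A hA
  have hf : ((jb - js ^ r : ↥(F1pBar N r)) : LaurentSeries Kb) =
      coeffMap A.subtype (coeffMap (Int.castRingHom ↥A) (jZ (N * r) - jZ N ^ r)) := by
    rw [map_sub, map_sub, map_pow, map_pow, ← coe_jb hjb A, ← coe_js hjs A]
    rfl
  have hmem := Fermat.Agent.S43.LG1.Ig.TestFrob.mem_V₁_of_integral hA _ _ hf
  have hred := Fermat.Agent.S43.LG1.Ig.TestFrob.coe_red₁_of_integral hr hA hrN _ _ hf hmem
  rw [← red₁_eq_zero_iff_mem_nonunits hr hA hrN ⟨_, hmem⟩]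
  apply Subtype.ext
  rw [hred, coeffMap_coeffMap,
    RingHom.ext_int ((residue ↥A).comp (Int.castRingHom ↥A)) (Int.castRingHom (ResidueField ↥A)),
    map_sub, map_pow, coeffMap_jZ, coeffMap_jZ, qExpand_jqModC_pow (ResidueField ↥A) r N,
    qExpand_congr (mul_comm r N) (jqModC (ResidueField ↥A)), sub_self]
  rfl

include hr hrN hjb hjs in
/-- `j(t^N) ≢ j(t^{N r})^r` modulo the maximal ideal of `V₁` -/
theorem js_sub_notMem_nonunits : js - jb ^ r ∉ (V₁ N A hA).nonunits := by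
  haveI := Fermat.Agent.S18.ResidueBasics.charP_residueField A hA
  have hf : ((js - jb ^ r : ↥(F1pBar N r)) : LaurentSeries Kb) =
      coeffMap A.subtype (coeffMap (Int.castRingHom ↥A) (jZ N - jZ (N * r) ^ r)) := by
    rw [map_sub, map_sub, map_pow, map_pow, ← coe_jb hjb A, ← coe_js hjs A]
    rfl
  have hmem := Fermat.Agent.S43.LG1.Ig.TestFrob.mem_V₁_of_integral hA _ _ hf
  have hred := Fermat.Agent.S43.LG1.Ig.TestFrob.coe_red₁_of_integral hr hA hrN _ _ hf hmem
  rw [← red₁_eq_zero_iff_mem_nonunits hr hA hrN ⟨_, hmem⟩]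
  intro h0
  have h1 := congrArg (fun z : ↥(F1C N (ResidueField ↥A)) =>
    (z : LaurentSeries (ResidueField ↥A))) h0
  beta_reduce at h1
  rw [hred, coeffMap_coeffMap,
    RingHom.ext_int ((residue ↥A).comp (Int.castRingHom ↥A)) (Int.castRingHom (ResidueField ↥A)),
    map_sub, map_pow, coeffMap_jZ, coeffMap_jZ,
    qExpand_jqModC_pow (ResidueField ↥A) r (N * r)] at h1
  have h3 := congrArg (fun z : LaurentSeries (ResidueField ↥A) => z.coeff ((N : ℤ) * (-1))) h1
  simp only [HahnSeries.coeff_sub] at h3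
  rw [qExpand_coeff_mul, coeff_jqModC_neg_one, qExpand_coeff_of_not_dvd] at h3
  · rw [sub_zero] at h3
    exact one_ne_zero h3
  · intro hdvd
    rw [mul_neg_one, dvd_neg, Int.natCast_dvd_natCast] at hdvd
    have hN : 0 < N := Nat.pos_of_ne_zero (NeZero.ne N)
    have h4 := Nat.le_of_dvd hN hdvd
    have hq2 : 2 ≤ r := hr.two_le
    have h5 : 2 * (N * 2) ≤ r * (N * r) := Nat.mul_le_mul hq2 (Nat.mul_le_mul_left N hq2)
    omega

end Six

/-! ### the seam (V) on `E''` -/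

section Branch

variable (hr : r.Prime) (hrN : ¬ r ∣ N) {A : ValuationSubring Kb} (hA : A.LiesOverPrime r)

/-- **the seam (V) on `E''`**: the Gauss branch `V₁` of C1 -/
theorem isGaussBranchH_incl : IsGaussBranchH (incl N r) A (V1X1 hr hA hrN) := by
  refine ⟨fun s hs x hx y hy => ?_, fun d hd x y hy => ?_, arch_VX1 hr hA hrN 0,
    V_ne_top1 hr hA hrN (comap_VX1 hr hA hrN 0), fun f hf => hval_VX1 hr hA hrN 0 f hf,
    fun jb js hjb hjs => ?_⟩
  · have e : y = arithmeticGalois (F1p N r) s • x := by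
      apply injective_hom (incl N r)
      rw [hy, incl_smul]
    rw [e]
    exact smul_sub_mem_nonunits₁1 hr hA hrN hs hx
  · have e : y = x := by
      apply injective_hom (incl N r)
      rw [hy]
      exact diamondAut_apply_of_mem hc.out d hd (incl N r x)
        (by rw [coe_incl]; exact x.2)
    rw [e]
  · rw [V1X1_eq]
    exact ⟨jb_sub_mem_nonunits hr hrN hA hjb hjs, js_sub_notMem_nonunits hr hrN hA hjb hjs⟩

end Branch

/-! ### the gate -/

/-- **the `H`-gate for `H = ⊥` at a prime `r ∤ N` with `ℚ̄(X₁(N r)) ≤ ℚ̄(X₁(N; r))`** -/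
theorem lg1HypAtH_of_le (hr : r.Prime) (hrN : ¬ r ∣ N) (hle : F1Bar (N * r) ≤ F1pBar N r)
    {p : ℕ} (hp : p.Prime) (hpr : p ≠ r) :
    LG1HypAtH N r p (⊥ : Subgroup (ZMod (N * r))ˣ) false := by
  obtain ⟨w, hw, hwW⟩ := Fermat.Agent.S43.LG1.Ig.FrickeW1.exists_fricke_extends (N := N) hr hrN
  have hcop : (Nat.card (⊥ : Subgroup (ZMod (N * r))ˣ)).Coprime p := by
    rw [Subgroup.card_bot]
    exact Nat.coprime_one_left p
  refine lg1HypAtH_w (ι := incl N r) (hι := hι_bot hle) hHq_bot hp.ne_zero hcop w hw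
    fun A hA => ⟨V1X1 hr hA hrN, isGaussBranchH_incl hr hrN hA, ?_⟩
  exact coreZPairH_incl hr hrN hle hw hwW hA
    (Fermat.Agent.S43.LG1.C1.CoreZX1.coreZHyp1 N r p hp hpr)

/-- `ℚ̄(X₁(2 N)) = ℚ̄(X₁(N; 2))` inside `ℚ̄((q))` (`N` odd, `5 ≤ N`) -/
theorem F1Bar_mul_two_le (N : ℕ) [NeZero N] (hN : 5 ≤ N) (hN2 : ¬ 2 ∣ N) :
    F1Bar (N * 2) ≤ F1pBar N 2 := by
  rw [← IntermediateField.relfinrank_eq_one_iff]
  exact relfinrank_F1pBar_F1Bar_mul Nat.prime_two hN2 hN

/-- **THE `H`-GATE AT `q = 2`**, for `H = ⊥` (no invariance asked): `N` odd, `5 ≤ N`, `p` an odd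
prime. -/
theorem lg1HypAtH_two (N : ℕ) [NeZero N] (hN : 5 ≤ N) (hN2 : ¬ 2 ∣ N) {p : ℕ} (hp : p.Prime)
    (hp2 : p ≠ 2) : LG1HypAtH N 2 p (⊥ : Subgroup (ZMod (N * 2))ˣ) false := by
  haveI : Fact (Nat.Coprime 2 N) := ⟨(Nat.Prime.coprime_iff_not_dvd Nat.prime_two).2 hN2⟩
  exact lg1HypAtH_of_le Nat.prime_two hN2 (F1Bar_mul_two_le N hN hN2) hp hp2

/-- **the `H`-gate at `q = 2`** for an arbitrary `H'` -/
theorem lg1HypAtH_two' (N : ℕ) [NeZero N] (hN : 5 ≤ N) (hN2 : ¬ 2 ∣ N) {p : ℕ} (hp : p.Prime)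
    (hp2 : p ≠ 2) (H' : Subgroup (ZMod (N * 2))ˣ) : LG1HypAtH N 2 p H' false :=
  lg1HypAtH_mono bot_le (lg1HypAtH_two N hN hN2 hp hp2)

end Fermat.Agent.S43.LG1.H.GateTwo

end
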