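/-
PROJECT R (row 37 by S43), gate G / LG1 assembly on `F_H` (helper4): **THE GAUSS BRANCH OF `F_H` IS
THE RESTRICTION OF THE GAUSS BRANCH OF `E' = ℚ̄(X₁(N q))`.**

`V'` a valuation ring of `E'` (helper3's `V/Branch.gaussV (N q) hA`), `V := V'.comap ι`.  Six of the
clauses of `Gate.IsGaussBranchH ι A V` are inherited from the corresponding statements for `V'` on
`E'` (which are theorems: `V/Branch`), and clause 2 is asked ON `ι(F)` ONLY:

  `h2 : ∀ d ≡ 1 mod N, ∀ x : F, ⟨d⟩ (ι x) ∈ V' ↔ ι x ∈ V'`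

which is what IG proves ((I1) on `F_H`).

* `mem_nonunits_comap` ;
* `isGaussBranchH_comap`.
-/
import Fermat.Agent.S43.LG1.H.Gate

set_option autoImplicit false
set_option linter.unusedSectionVars false

noncomputable section

namespace Fermat.Agent.S43.LG1.H.Comap

open AlgebraicCurve AlgebraicCurve.SemilinearAut ModularCurve
open Fermat.Agent.S48.B.Defs.Model
open Fermat.Agent.S34.WeakApprox
open Fermat.Agent.S43.LG1.OfFricke Fermat.Agent.S43.LG1.OfSeams Fermat.Agent.S43.LG1.OfSeamsR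
open Fermat.Agent.S43.LG1.H.Gate

local notation "Kb" => AlgebraicClosure ℚ

attribute [local instance] Fermat.Agent.S43.LG1.Fricke.Seam.instNeZeroMul

section General

variable {F E : Type*} [Field F] [Field E] (ι : F →+* E) (V' : ValuationSubring E)

theorem mem_comap_iff (x : F) : x ∈ V'.comap ι ↔ ι x ∈ V' := Iff.rfl

/-- the maximal ideal of the restriction -/
theorem mem_nonunits_comap (x : F) : x ∈ (V'.comap ι).nonunits ↔ ι x ∈ V'.nonunits := by
  rcases eq_or_ne x 0 with rfl | hx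
  · rw [map_zero]
    exact ⟨fun _ => V'.nonunits.zero_mem, fun _ => (V'.comap ι).nonunits.zero_mem⟩
  · have hιx : ι x ≠ 0 := (map_ne_zero ι).mpr hx
    rw [mem_nonunits_iff_inv_not_mem _ hx, mem_nonunits_iff_inv_not_mem _ hιx, mem_comap_iff,
      map_inv₀]

end General

variable {N q : ℕ} [NeZero N] [NeZero q]
variable {F : Type} [Field F] [Algebra Kb F] (ι : F →ₐ[Kb] F1Bar (N * q))

/-- **the Gauss branch of `F_H`** from the Gauss branch `V'` of `E'` and (I1) on `ι(F)`. -/
theorem isGaussBranchH_comap {A : ValuationSubring Kb} {V' : ValuationSubring (F1Bar (N * q))}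
    (h1 : ∀ s ∈ A.inertiaSubgroupIn ℚ, ∀ x ∈ V',
      arithmeticGalois (F1 (N * q)) s • x - x ∈ V'.nonunits)
    (h2 : ∀ d : (ZMod (N * q))ˣ, IsQPart N q d →
      ∀ x : F, diamondAut (N * q) Kb d (ι x) ∈ V' ↔ ι x ∈ V')
    (h3 : Arch V') (h4 : V' ≠ ⊤)
    (h5 : ∀ f : F1Bar (N * q), f ≠ 0 →
      ∃ c : Kb, V'.valuation f = V'.valuation (algebraMap Kb (F1Bar (N * q)) c))
    (h6 : jBig N q - jSmall N q ^ q ∈ V'.nonunits)
    (h7 : jSmall N q - jBig N q ^ q ∉ V'.nonunits) :
    IsGaussBranchH ι A (V'.comap (ι : F →+* F1Bar (N * q))) := by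
  refine ⟨?_, ?_, ?_, ?_, ?_, ?_⟩
  · intro s hs x hx y hy
    rw [mem_nonunits_comap]
    have h := h1 s hs (ι x) hx
    rw [← hy] at h
    simpa only [RingHom.coe_coe, map_sub] using h
  · intro d hd x y hy
    rw [mem_comap_iff, mem_comap_iff]
    have h := h2 d hd x
    rw [← hy] at h
    exact h
  · intro a c hc hc0
    obtain ⟨k, hk⟩ := h3 (ι a) (ι c) ((mem_nonunits_comap _ V' c).mp hc) ((map_ne_zero _).mpr hc0)
    refine ⟨k, ?_⟩
    rw [mem_comap_iff]
    simpa only [RingHom.coe_coe, map_mul, map_pow] using hk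
  · intro htop
    apply h4
    rw [eq_top_iff]
    intro z _
    rcases eq_or_ne z 0 with rfl | hz
    · exact V'.zero_mem
    · obtain ⟨c, hc⟩ := h5 z hz
      have hmem : algebraMap Kb (F1Bar (N * q)) c ∈ V' := by
        have h0 : algebraMap Kb F c ∈ V'.comap (ι : F →+* F1Bar (N * q)) := by
          rw [htop]
          trivial
        rw [mem_comap_iff] at h0
        simpa only [RingHom.coe_coe, AlgHom.commutes] using h0
      rw [← V'.valuation_le_one_iff] at hmem ⊢
      rw [hc]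
      exact hmem
  · intro f hf
    have hιf : ι f ≠ 0 := (map_ne_zero _).mpr hf
    obtain ⟨c, hc⟩ := h5 (ι f) hιf
    have hc0 : c ≠ 0 := by
      rintro rfl
      rw [map_zero, map_zero] at hc
      exact hιf ((Valuation.zero_iff _).mp hc)
    have hcF : algebraMap Kb F c ≠ 0 := (map_ne_zero _).mpr hc0
    have hcE : algebraMap Kb (F1Bar (N * q)) c ≠ 0 := (map_ne_zero _).mpr hc0
    refine ⟨c, ?_⟩
    rw [valuation_eq_iff_div_mem _ hf hcF, mem_comap_iff, mem_comap_iff]
    have h := (valuation_eq_iff_div_mem _ hιf hcE).mp hc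
    simpa only [RingHom.coe_coe, map_div₀, AlgHom.commutes] using h
  · intro jb js hjb hjs
    rw [mem_nonunits_comap, mem_nonunits_comap]
    simp only [RingHom.coe_coe, map_sub, map_pow, hjb, hjs]
    exact ⟨h6, h7⟩

end Fermat.Agent.S43.LG1.H.Comap
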