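/-
PROJECT R (row 37 by S43), gate G / LG1 assembly on `F_H` (helper4): **(Core-Z) ON `F_H`, FROM
DIVISOR LANGUAGE TO THE SEAM `Gate.CoreZPairH`.**

C2/Final (helper10) concludes on divisors: for `u` a one-unit of both Gauss rings of `F` with
`div u = p^k D`, `deg D = 0`, the divisor `g • D - D` is principal.  `Gate.CoreZPairH` is stated on
functions (`g • u = c h^{p^k} u`).  The dictionary is main's `S34/CoreZOfPrincipal`; the only input
is "a function without zeros and poles is constant", true in every function field over an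
algebraically closed field of characteristic zero (`exists_const_of_ord_eq_zero`).

* `exists_const_of_ord_eq_zero (hx : IsFF K x)` ;
* `PrincipalPairH ι p A V w` : (Core-Z) in divisor language on `F` ;
* `coreZPairH_of_principal : PrincipalPairH ι p A V w → CoreZPairH ι p A V w` ;
* `gateH_of_principal`, `lg1HypAtH_of_principal` : `Gate.gateH` with the divisor form of the seam.
-/
import Fermat.Agent.S43.LG1.H.Gate
import Fermat.Agent.S34.CoreZOfPrincipal
import Fermat.Agent.S18.A.RiemannBasic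
import Fermat.Agent.S24.Hurwitz

set_option autoImplicit false
set_option linter.unusedSectionVars false
set_option linter.style.haveILetI false

noncomputable section

namespace Fermat.Agent.S43.LG1.H.CoreZ

open AlgebraicCurve AlgebraicCurve.SemilinearAut ModularCurve
open Fermat.Agent.S48.B.Defs.Model
open Fermat.Agent.S34.KummerZ Fermat.Agent.S34.Z1Abstract Fermat.Agent.S34.CoreZOfPrincipal
open Fermat.Agent.S43.LG1.OfFricke Fermat.Agent.S43.LG1.Instance
open Fermat.Agent.S43.LG1.Fricke.Seam Fermat.Agent.S43.LG1.OfSeams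
open Fermat.Agent.S43.LG1.H.Gate Fermat.Agent.S43.LG1.H.Lit Fermat.Agent.S43.LG1.H.Transfer

local notation "Kb" => AlgebraicClosure ℚ

attribute [local instance] Fermat.Agent.S43.LG1.Fricke.Seam.instNeZeroMul

section General

universe u w

variable {K : Type w} {F : Type u} [Field K] [Field F] [Algebra K F] [IsAlgClosed K] [CharZero K]

/-- a function without zeros and poles is a nonzero constant -/
theorem exists_const_of_ord_eq_zero {x : F} (hx : Fermat.Agent.S24.FF.IsFF K x) (f : F)
    (hf : f ≠ 0) (h : ∀ w : Place K F, w.ord f = 0) :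
    ∃ c : K, c ≠ 0 ∧ f = algebraMap K F c := by
  haveI := Fermat.Agent.S18.GaussFromHBar.hasPrincipalDivisors_of_isFF hx
  haveI : Nonempty (Place K F) := Fermat.Agent.S24.Hurwitz.exists_place hx
  have hmem : f ∈ riemannRochSpace (0 : Divisor K F) := by
    rw [Fermat.Agent.S18.A.Riemann.mem_iff_of_ne_zero hf]
    intro w
    rw [h w]
    simp
  obtain ⟨c, hc⟩ := (Fermat.Agent.S18.A.Riemann.mem_rr_zero_iff
    (Fermat.Agent.S24.Ord.deg_eq_one hx)).mp hmem
  refine ⟨c, ?_, hc⟩
  rintro rfl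
  rw [map_zero] at hc
  exact hf hc

end General

variable {N q : ℕ} [NeZero N] [NeZero q]
variable {H : Subgroup (ZMod (N * q))ˣ}
variable {F : Type} [Field F] [Algebra Kb F] (ι : F →ₐ[Kb] F1Bar (N * q))

/-- **(Core-Z) on `F_H` in divisor language** (the conclusion of C2/Final). -/
def PrincipalPairH (p : ℕ) (A : ValuationSubring Kb) (V : ValuationSubring F) (w : F ≃ₐ[Kb] F) :
    Prop :=
  ∀ s ∈ A.inertiaSubgroupIn ℚ, ∀ g : SemilinearAut Kb F,
    (∀ x : F, ι (g • x) = arithmeticGalois (F1 (N * q)) s • ι x) →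
    ∀ (k : ℕ) (u : F) (D : Divisor Kb F), u ≠ 0 → IsOneUnit V u → IsOneUnit (pull V w) u →
      Divisor.degree D = 0 → (∀ P : Place Kb F, P.ord u = ((p ^ k : ℕ) : ℤ) * D P) →
      g • D - D ∈ Divisor.principal (K := Kb) (F := F)

variable (hι : ∀ x : F1Bar (N * q), x ∈ ι.range ↔ ∀ d ∈ H, diamondAut (N * q) Kb d x = x)

include hι in
/-- `F` is a function field: `j ∈ ι(F)` -/
theorem exists_isFF : ∃ x : F, Fermat.Agent.S24.FF.IsFF Kb x := by
  obtain ⟨x, hx⟩ := jgen1_mem ι hι
  refine ⟨x, isFF_of_map ι ?_⟩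
  have h0 : ι x = Fermat.Agent.S48.B.B1.Seams.jgen1 (N * q) := hx
  rw [h0]
  exact (Fermat.Agent.S48.B.B1.Main.deg1 (N * q)).1

include hι in
theorem hasPrincipalDivisors_F : HasPrincipalDivisors Kb F := by
  obtain ⟨x, hx⟩ := exists_isFF ι hι
  exact Fermat.Agent.S18.GaussFromHBar.hasPrincipalDivisors_of_isFF hx

include hι in
theorem deg_eq_one_F (P : Place Kb F) : P.deg = 1 := by
  obtain ⟨x, hx⟩ := exists_isFF ι hι
  exact Fermat.Agent.S24.Ord.deg_eq_one hx P

variable {ι}

include hι in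
/-- **the seam (C) on `F_H` from its divisor form** -/
theorem coreZPairH_of_principal {p : ℕ} (hp : p ≠ 0) {A : ValuationSubring Kb}
    {V : ValuationSubring F} {w : F ≃ₐ[Kb] F} (h : PrincipalPairH ι p A V w) :
    CoreZPairH ι p A V w := by
  intro s hs g hg k u hu h1 h2
  obtain ⟨x, hx⟩ := exists_isFF ι hι
  haveI := hasPrincipalDivisors_F ι hι
  exact coreZ_of_principal (exists_const_of_ord_eq_zero hx) g (p ^ k) (pow_ne_zero k hp) hu
    (fun D hdeg hD => h s hs g hg k u D hu.1 h1 h2 hdeg hD)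

/-- **THE `H`-GATE for ONE GIVEN `w`, seam (C) in divisor language.** -/
theorem gateH_of_principal_w (hHq : ∀ d ∈ H, IsRPart N q d) [Finite H] {p : ℕ} (hp : p ≠ 0)
    (hcop : (Nat.card H).Coprime p)
    (w : F1Bar (N * q) ≃ₐ[Kb] F1Bar (N * q)) (hw : IsFricke N q w)
    (hVC : ∀ A : ValuationSubring Kb, A.LiesOverPrime q →
      ∃ V : ValuationSubring F, IsGaussBranchH ι A V ∧
        PrincipalPairH ι p A V (wF ι hι hHq w hw)) :
    GateH N q p H :=
  gateH_w hHq hp hcop w hw fun A hA => by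
    obtain ⟨V, hV, hC⟩ := hVC A hA
    exact ⟨V, hV, coreZPairH_of_principal hι hp hC⟩

/-- **THE `H`-GATE in the chief's literal for ONE GIVEN `w`, seam (C) in divisor language.** -/
theorem lg1HypAtH_of_principal_w (hHq : ∀ d ∈ H, IsRPart N q d) [Finite H] {p : ℕ} (hp : p ≠ 0)
    (hcop : (Nat.card H).Coprime p)
    (w : F1Bar (N * q) ≃ₐ[Kb] F1Bar (N * q)) (hw : IsFricke N q w)
    (hVC : ∀ A : ValuationSubring Kb, A.LiesOverPrime q →
      ∃ V : ValuationSubring F, IsGaussBranchH ι A V ∧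
        PrincipalPairH ι p A V (wF ι hι hHq w hw)) :
    LG1HypAtH N q p H false :=
  lg1HypAtH_false (gateH_of_principal_w hι hHq hp hcop w hw hVC)

/-- **THE `H`-GATE with the seam (C) in divisor language.** -/
theorem gateH_of_principal (hHq : ∀ d ∈ H, IsRPart N q d) [Finite H] {p : ℕ} (hp : p ≠ 0)
    (hcop : (Nat.card H).Coprime p) (hW : HasFricke N q)
    (hVC : ∀ A : ValuationSubring Kb, A.LiesOverPrime q →
      ∃ V : ValuationSubring F, IsGaussBranchH ι A V ∧
        ∀ (w : F1Bar (N * q) ≃ₐ[Kb] F1Bar (N * q)) (hw : IsFricke N q w),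
          PrincipalPairH ι p A V (wF ι hι hHq w hw)) :
    GateH N q p H :=
  gateH hHq hp hcop hW fun A hA => by
    obtain ⟨V, hV, hC⟩ := hVC A hA
    exact ⟨V, hV, fun w hw => coreZPairH_of_principal hι hp (hC w hw)⟩

/-- **THE `H`-GATE in the chief's literal, seam (C) in divisor language.** -/
theorem lg1HypAtH_of_principal (hHq : ∀ d ∈ H, IsRPart N q d) [Finite H] {p : ℕ} (hp : p ≠ 0)
    (hcop : (Nat.card H).Coprime p) (hW : HasFricke N q)
    (hVC : ∀ A : ValuationSubring Kb, A.LiesOverPrime q →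
      ∃ V : ValuationSubring F, IsGaussBranchH ι A V ∧
        ∀ (w : F1Bar (N * q) ≃ₐ[Kb] F1Bar (N * q)) (hw : IsFricke N q w),
          PrincipalPairH ι p A V (wF ι hι hHq w hw)) :
    LG1HypAtH N q p H false :=
  lg1HypAtH_false (gateH_of_principal hι hHq hp hcop hW hVC)

end Fermat.Agent.S43.LG1.H.CoreZ
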