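/-
PROJECT R (row 37 by S43), gate G / LG1 (helper4): **THE GATE ON helper3's `F_H = ↥(FH N q H)`**
(`Ig/TowerH`), with helper3's Gauss ring `V/Branch.gaussV (N q) hA` restricted to `F_H`.

* `incl N q H : ↥(FH N q H) →ₐ[ℚ̄] E'`, `range_incl` (= `TowerH.mem_FH_iff`) ;
* `VH N q H hA := (gaussV (N q) hA).comap incl` ;
* `isGaussBranchH_VH` : the seam (V) on `F_H` from (I1) on `F_H` ALONE
  (`h2 : ∀ d ≡ 1 mod N, ∀ x : F_H, ⟨d⟩ x ∈ gaussV ↔ x ∈ gaussV`) ;
* **`lg1HypAtH_inst`** : `HasFricke N q` + (I1) on `F_H` + (Core-Z) on `F_H` in divisor language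
  (C2/Final's conclusion) `→ Lit.LG1HypAtH N q p H false`.
-/
import Fermat.Agent.S43.LG1.H.CoreZ
import Fermat.Agent.S43.LG1.H.Comap
import Fermat.Agent.S43.LG1.V.Branch
import Fermat.Agent.S43.LG1.Ig.TowerH

set_option autoImplicit false
set_option linter.unusedSectionVars false
set_option synthInstance.maxHeartbeats 400000

noncomputable section

namespace Fermat.Agent.S43.LG1.H.Inst

open AlgebraicCurve AlgebraicCurve.SemilinearAut ModularCurve
open Fermat.Agent.S48.B.Defs.Model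
open Fermat.Agent.S43.LG1.OfFricke Fermat.Agent.S43.LG1.OfSeams Fermat.Agent.S43.LG1.OfSeamsR
open Fermat.Agent.S43.LG1.Fricke.Seam
open Fermat.Agent.S43.LG1.H.Gate Fermat.Agent.S43.LG1.H.Lit Fermat.Agent.S43.LG1.H.CoreZ
open Fermat.Agent.S43.LG1.H.Comap
open Fermat.Agent.S43.LG1.V.Branch
open Fermat.Agent.S43.LG1.Ig.Tower Fermat.Agent.S43.LG1.Ig.TowerAlg Fermat.Agent.S43.LG1.Ig.TowerH

local notation "Kb" => AlgebraicClosure ℚ

attribute [local instance] Fermat.Agent.S43.LG1.Fricke.Seam.instNeZeroMul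
attribute [local instance] towerAlgebra isScalarTower_tower

variable (N q : ℕ) [NeZero N] [NeZero q] [hc : Fact (q.Coprime N)]
variable (H : Subgroup (ZMod (N * q))ˣ)

/-- the inclusion of `F_H` in `E' = ℚ̄(X₁(N q))`, over `ℚ̄` -/
def incl : ↥(FH N q H) →ₐ[Kb] ↥(F1Bar (N * q)) :=
  (FH N q H).val.restrictScalars Kb

@[simp]
theorem incl_apply (x : ↥(FH N q H)) : incl N q H x = (x : ↥(F1Bar (N * q))) := rfl

theorem range_incl (hH : H ≤ rPart N q) (x : ↥(F1Bar (N * q))) :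
    x ∈ (incl N q H).range ↔ ∀ d ∈ H, diamondAut (N * q) Kb d x = x := by
  rw [← mem_FH_iff N q H hH]
  constructor
  · rintro ⟨y, rfl⟩
    exact y.2
  · intro hx
    exact ⟨⟨x, hx⟩, rfl⟩

theorem isRPart_of_le (hH : H ≤ rPart N q) : ∀ d ∈ H, IsRPart N q d :=
  fun _ hd => (mem_rPart_iff N q).mp (hH hd)

variable [hq : Fact q.Prime] {A : ValuationSubring Kb}

/-- **the Gauss ring of `F_H`** -/
def VH (hA : A.LiesOverPrime q) : ValuationSubring ↥(FH N q H) :=
  (gaussV (N * q) hA).comap (incl N q H : ↥(FH N q H) →+* ↥(F1Bar (N * q)))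

theorem mem_VH (hA : A.LiesOverPrime q) (x : ↥(FH N q H)) :
    x ∈ VH N q H hA ↔ (x : ↥(F1Bar (N * q))) ∈ gaussV (N * q) hA := Iff.rfl

/-- **the seam (V) on `F_H` from (I1) on `F_H` alone** -/
theorem isGaussBranchH_VH (hA : A.LiesOverPrime q)
    (h2 : ∀ d : (ZMod (N * q))ˣ, IsQPart N q d → ∀ x : ↥(FH N q H),
      diamondAut (N * q) Kb d (x : ↥(F1Bar (N * q))) ∈ gaussV (N * q) hA ↔
        (x : ↥(F1Bar (N * q))) ∈ gaussV (N * q) hA) :
    IsGaussBranchH (incl N q H) A (VH N q H hA) :=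
  isGaussBranchH_comap (incl N q H)
    (fun _ hs _ hx => smul_sub_mem_nonunits_gaussV (N * q) hA hs hx) h2
    (arch_gaussV (N * q) hA) (gaussV_ne_top (N * q) hA)
    (fun _ hf => exists_valuation_eq_const (N * q) hA hf)
    (jBig_sub_mem_nonunits N q hA) (jSmall_sub_notMem_nonunits N q hA)

/-- **THE `H`-GATE AT helper3's `F_H`, for ONE GIVEN Fricke automorphism `w`.** -/
theorem lg1HypAtH_inst_w (hH : H ≤ rPart N q) {p : ℕ} (hp : p ≠ 0)
    (hcop : (Nat.card H).Coprime p)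
    (w : F1Bar (N * q) ≃ₐ[Kb] F1Bar (N * q)) (hw : IsFricke N q w)
    (hI1 : ∀ (A : ValuationSubring Kb) (hA : A.LiesOverPrime q) (d : (ZMod (N * q))ˣ),
      IsQPart N q d → ∀ x : ↥(FH N q H),
        diamondAut (N * q) Kb d (x : ↥(F1Bar (N * q))) ∈ gaussV (N * q) hA ↔
          (x : ↥(F1Bar (N * q))) ∈ gaussV (N * q) hA)
    (hC : ∀ (A : ValuationSubring Kb) (hA : A.LiesOverPrime q),
        PrincipalPairH (incl N q H) p A (VH N q H hA)
          (wF (incl N q H) (range_incl N q H hH) (isRPart_of_le N q H hH) w hw)) :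
    LG1HypAtH N q p H false :=
  lg1HypAtH_of_principal_w (range_incl N q H hH) (isRPart_of_le N q H hH) hp hcop w hw
    fun A hA => ⟨VH N q H hA, isGaussBranchH_VH N q H hA (hI1 A hA), hC A hA⟩

/-- **THE `H`-GATE AT helper3's `F_H`.** -/
theorem lg1HypAtH_inst (hH : H ≤ rPart N q) {p : ℕ} (hp : p ≠ 0)
    (hcop : (Nat.card H).Coprime p) (hW : HasFricke N q)
    (hI1 : ∀ (A : ValuationSubring Kb) (hA : A.LiesOverPrime q) (d : (ZMod (N * q))ˣ),
      IsQPart N q d → ∀ x : ↥(FH N q H),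
        diamondAut (N * q) Kb d (x : ↥(F1Bar (N * q))) ∈ gaussV (N * q) hA ↔
          (x : ↥(F1Bar (N * q))) ∈ gaussV (N * q) hA)
    (hC : ∀ (A : ValuationSubring Kb) (hA : A.LiesOverPrime q)
      (w : F1Bar (N * q) ≃ₐ[Kb] F1Bar (N * q)) (hw : IsFricke N q w),
        PrincipalPairH (incl N q H) p A (VH N q H hA)
          (wF (incl N q H) (range_incl N q H hH) (isRPart_of_le N q H hH) w hw)) :
    LG1HypAtH N q p H false :=
  lg1HypAtH_of_principal (range_incl N q H hH) (isRPart_of_le N q H hH) hp hcop hW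
    fun A hA => ⟨VH N q H hA, isGaussBranchH_VH N q H hA (hI1 A hA), fun w hw => hC A hA w hw⟩

end Fermat.Agent.S43.LG1.H.Inst
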