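/-
PROJECT R (row 37 by S43), gate G / LG1 (helper4): **THE `H`-GATE FOR `H =` THE WHOLE `r`-PART
(`m = 1`, `F_H = E''`)**, at every prime `r > 2`, `r ∤ N`, with `r - 1` prime to `p` — in particular
at `r = 3`, where the IG chain (`Ig/GateMain`, `5 ≤ r`) does not apply.

The generalisation of helper11's `H/GateTwo` (`r = 2`, `E' = E''`, `H = ⊥`) : `H/Gate.lg1HypAtH_w`
fed with `F := E''`, `ι := TowerAlg.incl N r`, `H := rPart N r` (presentation hypothesis =
`TowerAlg.exists_sigma` : the fixed field of the diamonds of the `r`-part is `E''`), the Gauss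
branch `V1X1` of C1 (helper11's `GateTwo.isGaussBranchH_incl`), helper7's Fricke automorphism
extending `W1`, and the seam (C) = helper13's `C1/CoreZX1.coreZHyp1`.

* `hι_rPart`, `hHq_rPart` : the presentation hypotheses of `H/Gate` for `H = rPart N r` ;
* `wF_eq_W1`, `pull_wF_eq`, `coreZPairH_incl` : for ANY presentation `(H, hι, hHq)` of `E''` ;
* **`lg1HypAtH_rPart`** : `LG1HypAtH N r p (rPart N r) false` ;
* **`lg1HypAtH_odd`** : for EVERY odd prime `r ∤ N` (`5 ≤ N`, `p ≠ 2, r`) and every `H` containing the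
  elements of the `r`-part of order prime to `p` (`r = 3` here, `5 ≤ r` by `Ig/GateP`) ;
* **`lg1HypAtH_prime`** : the same at EVERY prime `r ∤ N` (`r = 2` : `H/GateTwo`).
-/
import Fermat.Agent.S43.LG1.H.GateTwo
import Fermat.Agent.S43.LG1.Ig.GateP

set_option autoImplicit false
set_option linter.unusedSectionVars false
set_option linter.style.haveILetI false
set_option synthInstance.maxHeartbeats 400000

noncomputable section

namespace Fermat.Agent.S43.LG1.H.GateOne

open ModularCurve AlgebraicCurve AlgebraicCurve.SemilinearAut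
open Fermat.Agent.S48.B.Defs.Model Fermat.Agent.S48.B.ES.DiamondUnique
open Fermat.Agent.S48.B.B1.Seams Fermat.Agent.S48.B.ES.DegreeBeta1
open Fermat.Agent.S43.LG1.OfFricke Fermat.Agent.S43.LG1.Instance
open Fermat.Agent.S43.LG1.Fricke.Seam Fermat.Agent.S43.LG1.OfSeams
open Fermat.Agent.S43.LG1.H.Restrict Fermat.Agent.S43.LG1.H.Gate Fermat.Agent.S43.LG1.H.Lit
open Fermat.Agent.S43.LG1.H.GateTwo
open Fermat.Agent.S43.LG1.Ig.Tower Fermat.Agent.S43.LG1.Ig.TowerAlg Fermat.Agent.S43.LG1.Ig.TowerH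
open Fermat.Agent.S43.LG1.C1.Seam Fermat.Agent.S43.LG1.C1.Z1X1
open Fermat.Agent.S43.LG1.C1.GaussPairX1 Fermat.Agent.S43.LG1.C1.GaussPairBridgeX1

local notation "Kb" => AlgebraicClosure ℚ

attribute [local instance] Fermat.Agent.S43.LG1.Fricke.Seam.instNeZeroMul
attribute [local instance] algShortcut1
attribute [local instance] towerAlgebra

variable {r : ℕ} [hrF : Fact r.Prime] {N : ℕ} [NeZero N] [NeZero r] [hc : Fact (r.Coprime N)]

/-! ### the presentation of `E''` as the fixed field of the `r`-part -/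

/-- **the fixed field of the diamonds of the `r`-part is `E''`** -/
theorem hι_rPart (hr : r.Prime) (hrN : ¬ r ∣ N) (hN : 5 ≤ N) (hr2 : 2 < r)
    (x : ↥(F1Bar (N * r))) :
    x ∈ (incl N r).range ↔ ∀ d ∈ rPart N r, diamondAut (N * r) Kb d x = x := by
  constructor
  · rintro ⟨y, rfl⟩ d hd
    exact diamondAut_apply_of_mem hc.out d ((mem_rPart_iff N r).mp hd) (incl N r y)
      (by rw [coe_incl]; exact y.2)
  · intro h
    obtain ⟨d₀, hd₀, -, -, -, hfix⟩ := exists_sigma N r hr hrN hN hr2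
    have h1 : sigmaOf N r d₀ hd₀ x = x := by
      rw [sigmaOf_apply]
      exact h d₀ ((mem_rPart_iff N r).mpr hd₀)
    obtain ⟨y, hy⟩ := hfix x h1
    exact ⟨y, hy⟩

theorem hHq_rPart : ∀ d ∈ rPart N r, IsRPart N r d :=
  fun _ hd => (mem_rPart_iff N r).mp hd

/-! ### the seam (C) on `E''`, for any presentation -/

section Pres

variable {H : Subgroup (ZMod (N * r))ˣ}
variable (hι : ∀ x : ↥(F1Bar (N * r)),
  x ∈ (incl N r).range ↔ ∀ d ∈ H, diamondAut (N * r) Kb d x = x)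
variable (hHq : ∀ d ∈ H, IsRPart N r d)
variable (hr : r.Prime) (hrN : ¬ r ∣ N)
variable {w : ↥(F1Bar (N * r)) ≃ₐ[Kb] ↥(F1Bar (N * r))} (hw : IsFricke N r w)
  (hwW : ∀ x : ↥(F1pBar N r), w (incl N r x) = incl N r (W1 N r hr hrN x))

include hwW in
/-- the restriction of `w` to `E''` is `W1` -/
theorem wF_eq_W1 (x : ↥(F1pBar N r)) :
    wF (incl N r) hι hHq w hw x = W1 N r hr hrN x := by
  apply injective_hom (incl N r)
  rw [apply_wF]
  exact hwW x

variable {A : ValuationSubring Kb} (hA : A.LiesOverPrime r)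

include hwW in
/-- `w⁻¹ V₁ = V₂` -/
theorem pull_wF_eq :
    pull (V1X1 hr hA hrN) (wF (incl N r) hι hHq w hw) = V2X1 hr hA hrN := by
  rw [V2X1_eq_comap]
  ext x
  rw [mem_pull, ValuationSubring.mem_comap, W1Hom_apply, wF_eq_W1 hι hHq hr hrN hw hwW]

include hwW in
/-- **the seam (C) on `E''`** is helper13's `CoreZHyp1` -/
theorem coreZPairH_incl {p : ℕ}
    (hC : Fermat.Agent.S43.LG1.C1.CoreZX1OfPrincipal.CoreZHyp1 N r p) :
    CoreZPairH (incl N r) p A (V1X1 hr hA hrN) (wF (incl N r) hι hHq w hw) := by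
  intro s hs g hg k u hu h1 h2
  rw [pull_wF_eq hι hHq hr hrN hw hwW hA] at h2
  obtain ⟨c, h, hc0, hh0, e⟩ := hC A hr hA hrN s hs k u hu h1 h2
  refine ⟨c, h, hc0, hh0, ?_⟩
  rw [← e]
  apply injective_hom (incl N r)
  rw [hg u, incl_smul]

end Pres

/-! ### the gate -/

/-- **THE `H`-GATE FOR `H =` THE `r`-PART** (`m = 1`), `r - 1` prime to `p`. -/
theorem lg1HypAtH_rPart (hr : r.Prime) (hrN : ¬ r ∣ N) (hN : 5 ≤ N) (hr2 : 2 < r)
    {p : ℕ} (hp : p.Prime) (hpr : p ≠ r) (hcop : (r - 1).Coprime p) :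
    LG1HypAtH N r p (rPart N r) false := by
  obtain ⟨w, hw, hwW⟩ := Fermat.Agent.S43.LG1.Ig.FrickeW1.exists_fricke_extends (N := N) hr hrN
  have hcop' : (Nat.card (rPart N r)).Coprime p := by
    rw [card_rPart N r hr hrN]
    exact hcop
  refine lg1HypAtH_w (ι := incl N r) (hι := hι_rPart hr hrN hN hr2) hHq_rPart hp.ne_zero hcop'
    w hw fun A hA => ⟨V1X1 hr hA hrN, isGaussBranchH_incl hr hrN hA, ?_⟩
  exact coreZPairH_incl (hι_rPart hr hrN hN hr2) hHq_rPart hr hrN hw hwW hA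
    (Fermat.Agent.S43.LG1.C1.CoreZX1.coreZHyp1 N r p hp hpr)

/-- **THE `H`-GATE AT EVERY ODD PRIME `r ∤ N`**, for every `H` containing the elements of the
`r`-part killed by an integer prime to `p`. -/
theorem lg1HypAtH_odd (hr : r.Prime) (hrN : ¬ r ∣ N) (hN : 5 ≤ N) (hr2 : 2 < r)
    {p : ℕ} (hp : p.Prime) (hp2 : p ≠ 2) (hpr : p ≠ r) (H : Subgroup (ZMod (N * r))ˣ)
    (hH : ∀ d ∈ rPart N r, ∀ k : ℕ, k.Coprime p → d ^ k = 1 → d ∈ H) :
    LG1HypAtH N r p H false := by
  rcases Nat.lt_or_ge r 5 with h5 | h5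
  · -- `r = 3`
    have hr3 : r = 3 := by
      interval_cases r
      · rfl
      · exact absurd hr (by decide)
    have hcop : (r - 1).Coprime p := by
      rw [hr3]
      exact (Nat.coprime_primes Nat.prime_two hp).mpr (Ne.symm hp2)
    refine lg1HypAtH_mono (fun d hd => hH d hd (r - 1) hcop ?_)
      (lg1HypAtH_rPart hr hrN hN hr2 hp hpr hcop)
    have h1 : (⟨d, hd⟩ : rPart N r) ^ (r - 1) = 1 := by
      rw [← card_rPart N r hr hrN]
      exact pow_card_eq_one'
    exact congrArg Subtype.val h1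
  · exact Fermat.Agent.S43.LG1.Ig.GateP.lg1HypAtH_of_contains N r hrN hN h5 hp hp2 hpr H hH

/-- **THE `H`-GATE AT EVERY PRIME `r ∤ N`** (`r = 2` by helper11's `H/GateTwo`), for every `H`
containing the elements of the `r`-part killed by an integer prime to `p`. -/
theorem lg1HypAtH_prime (hr : r.Prime) (hrN : ¬ r ∣ N) (hN : 5 ≤ N)
    {p : ℕ} (hp : p.Prime) (hp2 : p ≠ 2) (hpr : p ≠ r) (H : Subgroup (ZMod (N * r))ˣ)
    (hH : ∀ d ∈ rPart N r, ∀ k : ℕ, k.Coprime p → d ^ k = 1 → d ∈ H) :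
    LG1HypAtH N r p H false := by
  rcases Nat.lt_or_ge 2 r with h2 | h2
  · exact lg1HypAtH_odd hr hrN hN h2 hp hp2 hpr H hH
  · have hr2 : r = 2 := le_antisymm h2 hr.two_le
    subst hr2
    exact lg1HypAtH_two' N hN hrN hp hp2 H

end Fermat.Agent.S43.LG1.H.GateOne
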