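/-
PROJECT R (row 37 by S43), gate G / LG1 (helper4): **EVERY `s ∈ Gal(ℚ̄ / ℚ)` HAS AN INERTIA
DIAMOND** : for `N`, `q` coprime, `q` prime, there is `d ∈ (ℤ / N q)ˣ` with `d ≡ 1 mod N` and
`s ζ = ζ ^ d` on `μ_q` (`Instance.IsInertiaDiamond N q s d`).

Used to discharge, for EVERY inertia element, the two `SpecEquiv.Compat` of `Ig/Inertia`
(`CoreZ.PrincipalPairH` quantifies over all `s` in the inertia group, without its diamond).

* `exists_pow_of_ringEquiv` : `s ζ = ζ ^ a` on `μ_q`, `a` prime to `q`;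
* `exists_inertiaDiamond`.
-/
import Mathlib
import Fermat.Agent.S43.LG1.Instance

set_option autoImplicit false
set_option linter.unusedSectionVars false

noncomputable section

namespace Fermat.Agent.S43.LG1.H.Diamond

open Fermat.Agent.S43.LG1.Instance

local notation "Kb" => AlgebraicClosure ℚ

/-- a field automorphism of `ℚ̄` acts on `μ_q` by `ζ ↦ ζ ^ a`, `a` prime to `q` -/
theorem exists_pow_of_ringEquiv {q : ℕ} (hq : 0 < q) (s : Kb ≃ₐ[ℚ] Kb) :
    ∃ a : ℕ, a.Coprime q ∧ ∀ ζ : Kb, ζ ^ q = 1 → s ζ = ζ ^ a := by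
  have : NeZero q := ⟨hq.ne'⟩
  have : NeZero (q : Kb) := ⟨Nat.cast_ne_zero.mpr hq.ne'⟩
  obtain ⟨ζ₀, hζ₀⟩ := HasEnoughRootsOfUnity.exists_primitiveRoot Kb q
  have hs : IsPrimitiveRoot (s ζ₀) q := hζ₀.map_of_injective s.injective
  obtain ⟨a, -, ha⟩ := hζ₀.eq_pow_of_pow_eq_one hs.pow_eq_one
  refine ⟨a, ?_, fun ζ hζ => ?_⟩
  · rw [← ha] at hs
    exact (hζ₀.pow_iff_coprime hq a).mp hs
  · obtain ⟨i, -, rfl⟩ := hζ₀.eq_pow_of_pow_eq_one hζ
    rw [map_pow, ← ha, ← pow_mul, ← pow_mul, mul_comm]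

/-- **every `s` has an inertia diamond** -/
theorem exists_inertiaDiamond {N q : ℕ} (hq : 0 < q) (hc : N.Coprime q) (s : Kb ≃ₐ[ℚ] Kb) :
    ∃ d : (ZMod (N * q))ˣ, IsInertiaDiamond N q s d := by
  obtain ⟨a, hac, ha⟩ := exists_pow_of_ringEquiv hq s
  obtain ⟨n, hn1, hn2⟩ := Nat.chineseRemainder hc 1 a
  have hnN : n.Coprime N := by
    have h := hn1.gcd_eq
    rw [Nat.gcd_one_left] at h
    exact h
  have hnq : n.Coprime q := by
    have h := hn2.gcd_eq
    rw [Nat.Coprime, h]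
    exact hac
  have hcop : n.Coprime (N * q) := Nat.Coprime.mul_right hnN hnq
  have hval : ((ZMod.unitOfCoprime n hcop : (ZMod (N * q))ˣ) : ZMod (N * q)).val = n % (N * q) := by
    rw [ZMod.coe_unitOfCoprime, ZMod.val_natCast]
  refine ⟨ZMod.unitOfCoprime n hcop, fun ζ hζ => ?_, ?_⟩
  · rw [hval, ha ζ hζ, pow_eq_pow_mod (n % (N * q)) hζ, pow_eq_pow_mod a hζ,
      Nat.mod_mod_of_dvd n (Dvd.intro_left N rfl)]
    exact congrArg (ζ ^ ·) hn2.symm
  · rw [hval]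
    have h1 : ((n % (N * q) : ℕ) : ZMod N) = ((1 : ℕ) : ZMod N) := by
      rw [ZMod.natCast_eq_natCast_iff]
      have h2 : n % (N * q) ≡ n [MOD N] := by
        show n % (N * q) % N = n % N
        exact Nat.mod_mod_of_dvd n (Dvd.intro q rfl)
      exact h2.trans hn1
    rw [h1, Nat.cast_one]

end Fermat.Agent.S43.LG1.H.Diamond
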