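/-
PROJECT R (row 37 by S43), gate G / LG1 (helper4): **THE SEAM (C) ON `F_H` FROM THE EXIT OF C2.**

`C2/Final.principal_cover` (helper10) concludes `g • D - D ∈ principal` on the cover `F` of a Kummer
cover `Y : KummerCover N0 K1 K2 F` for `u ∈ O₁' ∩ O₂'` with `red_i u = 1`.  `CoreZ.PrincipalPairH` asks
it for `u` a one-unit of `V` and of `w⁻¹ V`.  This file is the (thin) wire: `O₁' = V`, `O₂' = w⁻¹ V`.

* `exists_red_eq_one` : a one-unit of the Gauss ring of a branch reduces to `1`;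
* `principalPairH_of_cover`.
-/
import Fermat.Agent.S43.LG1.H.CoreZ
import Fermat.Agent.S43.LG1.C2.Final

set_option autoImplicit false
set_option linter.unusedSectionVars false

noncomputable section

namespace Fermat.Agent.S43.LG1.H.WireC

open AlgebraicCurve AlgebraicCurve.SemilinearAut ModularCurve
open Fermat.Agent.S48.B.Defs.Model
open Fermat.Agent.S34.NodalDefs Fermat.Agent.S34.Z1Abstract
open Fermat.Agent.S18.NonSpecial Fermat.Agent.S18.CoreDefs
open Fermat.Agent.S43.LG1.OfFricke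
open Fermat.Agent.S43.LG1.C2.Seam Fermat.Agent.S43.LG1.C2.Datum
open Fermat.Agent.S43.LG1.H.CoreZ

local notation "Kb" => AlgebraicClosure ℚ

attribute [local instance] Fermat.Agent.S43.LG1.Fricke.Seam.instNeZeroMul

section Generic

variable {L : Type*} [Field L] {k : Type*} [Field k] {A : ValuationSubring L} {π : A →+* k}
variable {FL : Type*} [Field FL] [Algebra L FL] {Fk : Type*} [Field Fk] [Algebra k Fk]

/-- a one-unit of the Gauss ring of a branch reduces to `1` -/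
theorem exists_red_eq_one (B : Branch A π FL Fk) {u : FL} (h : IsOneUnit B.O u) :
    ∃ hu : u ∈ B.O, B.red ⟨u, hu⟩ = 1 := by
  have h1 : u - 1 ∈ B.O := B.O.nonunits_le h
  have hu : u ∈ B.O := by
    have := B.O.add_mem _ _ h1 B.O.one_mem
    rwa [sub_add_cancel] at this
  refine ⟨hu, ?_⟩
  have h2 : ¬ IsUnit (⟨u - 1, h1⟩ : B.O) := by
    intro hunit
    have h3 : (⟨u - 1, h1⟩ : B.O) ∈ nonunits B.O := (B.O.coe_mem_nonunits_iff).mp h
    exact h3 hunit
  have h4 := (B.red_eq_zero_iff ⟨u - 1, h1⟩).mpr h2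
  have h5 : (⟨u - 1, h1⟩ : B.O) = ⟨u, hu⟩ - 1 := rfl
  rw [h5, map_sub, map_one, sub_eq_zero] at h4
  exact h4

end Generic

variable {N q : ℕ} [NeZero N] [NeZero q]
variable {F : Type} [Field F] [Algebra Kb F] (ι : F →ₐ[Kb] F1Bar (N * q))
variable {k : Type*} [Field k] {A : ValuationSubring Kb} {π : A →+* k}
variable {F0 : Type*} [Field F0] [Algebra Kb F0]
variable [Algebra F0 F] [IsScalarTower Kb F0 F] [Algebra.IsIntegral F0 F]
variable {κ1 : Type*} [Field κ1] [Algebra k κ1] {κ2 : Type*} [Field κ2] [Algebra k κ2]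
variable {K1 : Type*} [Field K1] [Algebra k K1] [Algebra κ1 K1] [IsScalarTower k κ1 K1]
  [Algebra.IsIntegral κ1 K1]
variable {K2 : Type*} [Field K2] [Algebra k K2] [Algebra κ2 K2] [IsScalarTower k κ2 K2]
  [Algebra.IsIntegral κ2 K2]
variable {ι' : Type*} {N0 : GNodalDatum A π F0 κ1 κ2 ι'}

/-- **the seam (C) on `F_H` in divisor language from the exit of C2**: `Y` a Kummer cover of the
nodal datum `N0` of `E''` with Gauss rings `V` and `w⁻¹ V`, and for every inertia element `s` and every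
`g` inducing `s` on `F` the two `SpecEquiv.Compat`. -/
theorem principalPairH_of_cover [HasPrincipalDivisors Kb F0] [HasPrincipalDivisors Kb F]
    [HasPrincipalDivisors k K1] [HasPrincipalDivisors k K2] [Fintype ι'] [Nonempty ι']
    (Y : KummerCover N0 K1 K2 F) (E : Extra Y)
    {V : ValuationSubring F} {w : F ≃ₐ[Kb] F} (hO1 : Y.U1.B.O = V) (hO2 : Y.U2.B.O = pull V w)
    (hadmfin : ∀ T1 T2, N0.Adm T1 T2 → T1.Finite ∧ T2.Finite)
    (hinj : Function.Injective N0.e2)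
    (hπ : Function.Surjective π) {p : ℕ} (hpk : (p : k) ≠ 0)
    {g' g1 g2 : ℕ} (HL : RiemannHyp Kb F g') (H1 : RiemannHyp k K1 g1) (H2 : RiemannHyp k K2 g2)
    (hcount : g' ≤ g1 + (g2 + Fintype.card ι' - 1))
    (Pstar : Place Kb F0) (Qstar : Place k κ1) (hQstar : Qstar ∈ N0.R1.good)
    (hstar : N0.R1.r Pstar = some Qstar)
    (hT : ∀ s ∈ A.inertiaSubgroupIn ℚ, ∀ g : SemilinearAut Kb F,
      (∀ x : F, ι (g • x) = arithmeticGalois (F1 (N * q)) s • ι x) →
      ∃ (g0 : SemilinearAut Kb F0) (τ1 : K1 ≃ₐ[k] K1) (τ2 : K2 ≃ₐ[k] K2),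
        Fermat.Agent.S43.LG1.C2.SpecEquiv.Compat N0.R1 Y.U1.B g g0 τ1 ∧
          Fermat.Agent.S43.LG1.C2.SpecEquiv.Compat N0.R2 Y.U2.B g g0 τ2) :
    PrincipalPairH ι p A V w := by
  intro s hs g hg n u D _ h1 h2 hD0 hD
  obtain ⟨g0, τ1, τ2, T1, T2⟩ := hT s hs g hg
  rw [← hO1] at h1
  rw [← hO2] at h2
  obtain ⟨hu1, hred1⟩ := exists_red_eq_one Y.U1.B h1
  obtain ⟨hu2, hred2⟩ := exists_red_eq_one Y.U2.B h2
  have hnk : ((p ^ n : ℕ) : k) ≠ 0 := by
    rw [Nat.cast_pow]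
    exact pow_ne_zero n hpk
  exact Fermat.Agent.S43.LG1.C2.Final.principal_cover Y E hadmfin hinj hπ (p ^ n) hnk HL H1 H2
    hcount Pstar Qstar hQstar hstar g g0 τ1 τ2 T1 T2 hu1 hu2 hred1 hred2 D hD0 hD

end Fermat.Agent.S43.LG1.H.WireC
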